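import Fermat.Agent.H23.BlueprintRH

/-!
# GEN-6 (P-GENUS / S24): order of the differential `dy` via a valued differential field
-/

set_option autoImplicit false

noncomputable section

open AlgebraicCurve KaehlerDifferential

namespace Fermat.Agent.H34

/-- The coordinate differential of a place is `d π` for some `π` of order one. -/
theorem exists_dCoord_eq {K F : Type} [Field K] [Field F] [Algebra K F] (v : Place K F) :
    ∃ π : F, v.ord π = 1 ∧ v.dCoord = D K F π := by
  have hirr := (IsDiscreteValuationRing.exists_irreducible v.toValuationSubring).choose_spec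
  exact ⟨_, v.ord_coe_irreducible hirr, rfl⟩

theorem differentialOrder : Fermat.Agent.H23.DifferentialOrderStatement := by
  intro K F _ _ _ M _ val der der_add der_mul val_der σ der_const v m hm hval hspan y hy
  classical
  let algFM : Algebra F M := σ.toAlgebra
  let algKM : Algebra K M := (σ.comp (algebraMap K F)).toAlgebra
  have : IsScalarTower K F M := IsScalarTower.of_algebraMap_eq (fun _ => rfl)
  have hsmulF : ∀ (a : F) (x : M), a • x = σ a * x := fun a x => rfl
  have hsmulK : ∀ (c : K) (x : M), c • x = σ (algebraMap K F c) * x := fun c x => rfl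
  -- the derivation `f ↦ der (σ f)`
  let δlin : F →ₗ[K] M :=
    { toFun := fun f => der (σ f)
      map_add' := fun a b => by rw [map_add, der_add]
      map_smul' := fun c f => by
        rw [Algebra.smul_def, map_mul, der_mul, der_const, zero_mul, add_zero, RingHom.id_apply,
          hsmulK] }
  let δ : Derivation K F M := Derivation.mk' δlin (fun a b => by
    change der (σ (a * b)) = a • der (σ b) + b • der (σ a)
    rw [map_mul, der_mul, hsmulF, hsmulF, mul_comm (der (σ a)) (σ b)])
  have hδ : ∀ f : F, δ f = der (σ f) := fun f => rfl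
  let L : Ω[F⁄K] →ₗ[F] M := δ.liftKaehlerDifferential
  have hL : ∀ f : F, L (D K F f) = der (σ f) := fun f => by
    rw [Derivation.liftKaehlerDifferential_comp_D, hδ]
  -- the uniformizer
  obtain ⟨π, hπ, hdC⟩ := exists_dCoord_eq v
  have hπ0 : π ≠ 0 := by
    rintro rfl
    rw [v.ord_zero] at hπ
    exact zero_ne_one hπ
  have hy0 : y ≠ 0 := by
    rintro rfl
    exact hy v.ord_zero
  have hmZ : (m : ℤ) ≠ 0 := by exact_mod_cast hm.ne'
  -- valuations
  have hvy : val (der (σ y)) = (((m : ℤ) * v.ord y - 1 : ℤ) : WithTop ℤ) :=
    val_der _ _ (mul_ne_zero hmZ hy) (hval y hy0)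
  have hvπ : val (der (σ π)) = (((m : ℤ) * v.ord π - 1 : ℤ) : WithTop ℤ) :=
    val_der _ _ (mul_ne_zero hmZ (by rw [hπ]; exact one_ne_zero)) (hval π hπ0)
  have hdy : der (σ y) ≠ 0 := by
    intro h
    rw [h, AddValuation.map_zero] at hvy
    exact WithTop.top_ne_coe hvy
  have key : ∀ f : F, D K F y = f • v.dCoord → v.ord f = v.ord y - 1 := by
    intro f hf
    have h1 : der (σ y) = σ f * der (σ π) := by
      rw [← hL y, hf, hdC, map_smul, hL, hsmulF]
    have hf0 : f ≠ 0 := by
      rintro rfl
      rw [map_zero, zero_mul] at h1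
      exact hdy h1
    have h2 : val (der (σ y)) = val (σ f) + val (der (σ π)) := by
      rw [h1, AddValuation.map_mul]
    rw [hvy, hvπ, hval f hf0, ← WithTop.coe_add, WithTop.coe_inj, hπ] at h2
    have h3 : (m : ℤ) * v.ord y = (m : ℤ) * (v.ord f + 1) := by linarith
    have h4 := mul_left_cancel₀ hmZ h3
    linarith
  refine ⟨?_, ?_⟩
  · intro h
    have : L (D K F y) = 0 := by rw [h, map_zero]
    rw [hL] at this
    exact hdy this
  · have hex : ∃ f : F, D K F y = f • v.dCoord := hspan _
    have hcoeff : v.differentialCoeff (D K F y) = hex.choose := by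
      unfold Place.differentialCoeff
      rw [dif_pos hex]
    unfold Place.ordDifferential
    rw [hcoeff]
    exact key _ hex.choose_spec

end Fermat.Agent.H34
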