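import Fermat.Agent.H53.S14T.Interfaces

/-!
# T-G3 (P-S14): the Kummer generator of a non-split admissible extension (assembly)
-/

set_option autoImplicit false

namespace Fermat.Agent.H34

open Fermat.Agent.H53

/-- For a primitive `p`-th root of unity, powers agree iff the exponents agree in `ZMod p`. -/
theorem pow_eq_pow_iff_cast_eq {M : Type*} [CommMonoid M] {p : ℕ} [NeZero p] {ζ : M}
    (hζ : IsPrimitiveRoot ζ p) (a b : ℕ) :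
    ζ ^ a = ζ ^ b ↔ (a : ZMod p) = (b : ZMod p) := by
  have hfin : IsOfFinOrder ζ :=
    isOfFinOrder_iff_pow_eq_one.mpr ⟨p, Nat.pos_of_ne_zero (NeZero.ne p), hζ.pow_eq_one⟩
  rw [hfin.pow_eq_pow_iff_modEq, ← hζ.eq_orderOf, ZMod.natCast_eq_natCast_iff]

/-- For a primitive `p`-th root of unity, `ζ ^ e = ζ` iff `e = 1` in `ZMod p`. -/
theorem pow_eq_self_iff_cast_eq_one {M : Type*} [CommMonoid M] {p : ℕ} [NeZero p] {ζ : M}
    (hζ : IsPrimitiveRoot ζ p) (e : ℕ) : ζ ^ e = ζ ↔ (e : ZMod p) = 1 := by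
  have h1 : ζ ^ e = ζ ↔ ζ ^ e = ζ ^ 1 := by rw [pow_one]
  rw [h1, pow_eq_pow_iff_cast_eq hζ, Nat.cast_one]

/-- For a primitive `p`-th root of unity, powers with exponents congruent in `ZMod p` agree. -/
theorem pow_eq_pow_of_cast_eq {M : Type*} [CommMonoid M] {p : ℕ} [NeZero p] {ζ : M}
    (hζ : IsPrimitiveRoot ζ p) {a b : ℕ} (h : (a : ZMod p) = (b : ZMod p)) : ζ ^ a = ζ ^ b :=
  (pow_eq_pow_iff_cast_eq hζ a b).mpr h

theorem galoisKummer (h0 : CycloExpStatement) (h1 : CocycleStatement) (h2 : Hilbert90Statement) :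
    GaloisKummerStatement := by
  intro p _ hp3 V _ _ _ _ C hadm hns ζ hζ
  have : NeZero p := ⟨(Fact.out : p.Prime).ne_zero⟩
  obtain ⟨b, hb1, ⟨τ₀, hτ₀χ, hτ₀b⟩, hb3, hb4, hb5⟩ := h1 p hp3 V C hadm hns
  have hζp : ζ ^ p = 1 := hζ.pow_eq_one
  have hζ0 : ζ ≠ 0 := hζ.ne_zero (Fact.out : p.Prime).ne_zero
  -- (G) the stabiliser of ζ
  have hG : ∀ τ : GQ, τ ζ = ζ ↔ (ExtCitation.cycloExp p τ : ZMod p) = 1 := by
    intro τ
    rw [h0 p ζ hζp τ]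
    exact pow_eq_self_iff_cast_eq_one hζ _
  have hset : {σ : GQ | σ ζ = ζ ∧ b σ = 0} =
      {σ : GQ | (ExtCitation.cycloExp p σ : ZMod p) = 1 ∧ b σ = 0} := by
    ext σ
    simp only [Set.mem_ofPred_eq, hG σ]
  obtain ⟨A₀, hA₀, hA⟩ := h2 p ζ hζ b
    (fun σ τ _ hτ => by rw [hb1, (hG τ).mp hτ, one_mul])
    (by rw [hset]; exact hb3)
  refine ⟨A₀, hA₀, ?_, ?_, ?_, ?_, ?_⟩
  · -- (K2)
    intro τ hτ
    rw [map_pow, hA τ hτ, mul_pow, ← pow_mul, mul_comm _ p, pow_mul, hζp, one_pow, one_mul]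
  · -- (K3)
    refine ⟨τ₀, (hG τ₀).mpr hτ₀χ, ?_⟩
    rw [hA τ₀ ((hG τ₀).mpr hτ₀χ)]
    intro h
    have h1' : ζ ^ (b τ₀).val = 1 := by
      have h2' : ζ ^ (b τ₀).val * A₀ = 1 * A₀ := by rw [h, one_mul]
      exact mul_right_cancel₀ hA₀ h2'
    have h3 : p ∣ (b τ₀).val := (hζ.pow_eq_one_iff_dvd _).mp h1'
    have h4 : (b τ₀).val = 0 := Nat.eq_zero_of_dvd_of_lt h3 (ZMod.val_lt _)
    exact hτ₀b ((ZMod.val_eq_zero _).mp h4)
  · -- (K4)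
    intro σ k hσ τ hτ
    have hχσ : (ExtCitation.cycloExp p σ : ZMod p) = (k : ZMod p) := by
      have e1 : ζ ^ (ExtCitation.cycloExp p σ) = ζ ^ k := by rw [← h0 p ζ hζp σ, hσ]
      exact (pow_eq_pow_iff_cast_eq hζ _ _).mp e1
    have hχτ : (ExtCitation.cycloExp p τ : ZMod p) = 1 := (hG τ).mp hτ
    -- the conjugate τ' = σ⁻¹ τ σ
    have hτ'ζ : (σ⁻¹ * τ * σ) ζ = ζ := by
      have e1 : τ (σ ζ) = σ ζ := by rw [hσ, map_pow, hτ]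
      show σ⁻¹ (τ (σ ζ)) = ζ
      rw [e1]
      exact σ.symm_apply_apply ζ
    have hχτ' : (ExtCitation.cycloExp p (σ⁻¹ * τ * σ) : ZMod p) = 1 := (hG _).mp hτ'ζ
    have hbτ' : b (σ⁻¹ * τ * σ) = (k : ZMod p) * b τ := by
      have e1 : b (σ * (σ⁻¹ * τ * σ)) = b (τ * σ) := by
        congr 1
        group
      rw [hb1 σ (σ⁻¹ * τ * σ), hb1 τ σ, hχτ', hχσ, one_mul] at e1
      rw [add_comm ((k : ZMod p) * b τ)] at e1
      exact add_left_cancel e1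
    have hτσ : τ (σ A₀) = ζ ^ (k ^ 2 * (b τ).val) * σ A₀ := by
      have e1 : τ (σ A₀) = σ ((σ⁻¹ * τ * σ) A₀) := by
        show τ (σ A₀) = σ (σ⁻¹ (τ (σ A₀)))
        exact (σ.apply_symm_apply _).symm
      rw [e1, hA _ hτ'ζ, map_mul, map_pow, hσ, ← pow_mul]
      congr 1
      apply pow_eq_pow_of_cast_eq hζ
      push_cast
      rw [ZMod.natCast_zmod_val, ZMod.natCast_zmod_val, hbτ']
      ring
    have hτA : τ (A₀ ^ (k ^ 2)) = ζ ^ (k ^ 2 * (b τ).val) * A₀ ^ (k ^ 2) := by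
      rw [map_pow, hA τ hτ, mul_pow, ← pow_mul, mul_comm (b τ).val]
    rw [map_div₀, hτσ, hτA]
    have hz : ζ ^ (k ^ 2 * (b τ).val) ≠ 0 := pow_ne_zero _ hζ0
    rw [mul_div_mul_left _ _ hz]
  · -- (K5)
    intro ℓ hℓ hℓp A hA' τ hτ
    obtain ⟨hχ, hbτ⟩ := hb4 ℓ hℓ hℓp A hA' τ hτ
    have hτζ : τ ζ = ζ := (hG τ).mpr hχ
    refine ⟨hτζ, ?_⟩
    rw [hA τ hτζ, hbτ, ZMod.val_zero, pow_zero, one_mul]
  · -- (K6)
    intro A hA' τ hτ hτζ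
    have hbτ := hb5 A hA' τ hτ ((hG τ).mp hτζ)
    rw [hA τ hτζ, hbτ, ZMod.val_zero, pow_zero, one_mul]

end Fermat.Agent.H34
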