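import Fermat.Agent.H76.ThaineInterfaces

/-!
# C3-e (P-S14): the primes of `ℚ(ζ_p)` over a degree-one prime
-/

set_option autoImplicit false
set_option linter.style.haveILetI false
set_option linter.unusedSectionVars false

open scoped NumberField nonZeroDivisors

namespace Fermat.Agent.H34

open Fermat.Agent.H13

section

variable {p : ℕ} [Fact p.Prime] {K : Type} [Field K] [NumberField K]

/-- `Ideal.map` only depends on the underlying function. -/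
theorem ideal_map_congr_fun {R S F G : Type*} [Semiring R] [Semiring S] [FunLike F R S]
    [FunLike G R S] (f : F) (g : G) (h : ∀ x, f x = g x) (I : Ideal R) :
    Ideal.map f I = Ideal.map g I := by
  unfold Ideal.map
  congr 1
  ext y
  constructor
  · rintro ⟨x, hx, rfl⟩
    exact ⟨x, hx, (h x).symm⟩
  · rintro ⟨x, hx, rfl⟩
    exact ⟨x, hx, h x⟩

theorem sigmaO_mul (σ τ : K ≃ₐ[ℚ] K) (x : 𝓞 K) :
    sigmaO K (σ * τ) x = sigmaO K σ (sigmaO K τ x) := rfl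

theorem sigmaO_one (x : 𝓞 K) : sigmaO K (1 : K ≃ₐ[ℚ] K) x = x := rfl

theorem map_sigmaO_mul (σ τ : K ≃ₐ[ℚ] K) (I : Ideal (𝓞 K)) :
    Ideal.map (sigmaO K (σ * τ)) I = Ideal.map (sigmaO K σ) (Ideal.map (sigmaO K τ) I) := by
  have h1 : Ideal.map (sigmaO K σ) (Ideal.map (sigmaO K τ) I) =
      Ideal.map ((sigmaO K σ : 𝓞 K →+* 𝓞 K).comp (sigmaO K τ : 𝓞 K →+* 𝓞 K)) I := by
    rw [← Ideal.map_map]
    rfl
  rw [h1]
  exact ideal_map_congr_fun _ _ (fun x => rfl) I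

theorem map_sigmaO_one (I : Ideal (𝓞 K)) : Ideal.map (sigmaO K (1 : K ≃ₐ[ℚ] K)) I = I := by
  have : Ideal.map (sigmaO K (1 : K ≃ₐ[ℚ] K)) I = Ideal.map (RingHom.id (𝓞 K)) I :=
    ideal_map_congr_fun _ _ (fun x => rfl) I
  rw [this, Ideal.map_id]

variable [IsCyclotomicExtension {p} ℚ K]

/-- `ζ - 1` is not in a prime of norm a prime `ℓ ≠ p`. -/
theorem toInteger_sub_one_notMem {ζ : K} (hζ : IsPrimitiveRoot ζ p)
    (P : Ideal (𝓞 K)) (hP : P.IsPrime) (hℓ : (Ideal.absNorm P).Prime)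
    (hne : Ideal.absNorm P ≠ p) : hζ.toInteger - 1 ∉ P := by
  intro h
  have hζ' : IsPrimitiveRoot hζ.toInteger p := hζ.toInteger_isPrimitiveRoot
  have hsum : ∑ i ∈ Finset.range p, hζ.toInteger ^ i = 0 :=
    hζ'.geom_sum_eq_zero (Fact.out : p.Prime).one_lt
  have hpP : ((p : ℕ) : 𝓞 K) ∈ P := by
    have e : ((p : ℕ) : 𝓞 K) = ∑ i ∈ Finset.range p, (1 - hζ.toInteger ^ i) := by
      rw [Finset.sum_sub_distrib, hsum, sub_zero]
      simp
    rw [e]
    refine Ideal.sum_mem _ fun i _ => ?_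
    have hd : hζ.toInteger - 1 ∣ hζ.toInteger ^ i - 1 := by
      simpa using sub_dvd_pow_sub_pow hζ.toInteger 1 i
    obtain ⟨c, hc⟩ := hd
    have : 1 - hζ.toInteger ^ i = (hζ.toInteger - 1) * (-c) := by
      rw [mul_neg, ← hc]; ring
    rw [this]
    exact Ideal.mul_mem_right _ _ h
  have hℓP : ((Ideal.absNorm P : ℕ) : 𝓞 K) ∈ P := Ideal.absNorm_mem P
  have hcop : IsCoprime ((Ideal.absNorm P : ℕ) : ℤ) ((p : ℕ) : ℤ) := by
    rw [Nat.isCoprime_iff_coprime]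
    exact (Nat.coprime_primes hℓ (Fact.out : p.Prime)).mpr hne
  obtain ⟨a, b, hab⟩ := hcop
  have h1 : (1 : 𝓞 K) ∈ P := by
    have e : (1 : 𝓞 K) = (a : 𝓞 K) * ((Ideal.absNorm P : ℕ) : 𝓞 K) + (b : 𝓞 K) * ((p : ℕ) : 𝓞 K) := by
      have := congrArg (fun z : ℤ => (z : 𝓞 K)) hab
      simp only [Int.cast_add, Int.cast_mul, Int.cast_natCast, Int.cast_one] at this
      exact this.symm
    rw [e]
    exact P.add_mem (P.mul_mem_left _ hℓP) (P.mul_mem_left _ hpP)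
  exact hP.ne_top ((Ideal.eq_top_iff_one P).mpr h1)

/-- The image of `ζ` in the residue ring of such a prime is a primitive `p`-th root of unity. -/
theorem isPrimitiveRoot_mk {ζ : K} (hζ : IsPrimitiveRoot ζ p)
    (P : Ideal (𝓞 K)) (hP : P.IsPrime) (hℓ : (Ideal.absNorm P).Prime)
    (hne : Ideal.absNorm P ≠ p) : IsPrimitiveRoot (Ideal.Quotient.mk P hζ.toInteger) p := by
  have hζ' : IsPrimitiveRoot hζ.toInteger p := hζ.toInteger_isPrimitiveRoot
  have h1 : (Ideal.Quotient.mk P hζ.toInteger) ^ p = 1 := by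
    rw [← map_pow, hζ'.pow_eq_one, map_one]
  have h2 : Ideal.Quotient.mk P hζ.toInteger ≠ 1 := by
    intro h
    apply toInteger_sub_one_notMem hζ P hP hℓ hne
    rw [← Ideal.Quotient.eq_zero_iff_mem, map_sub, map_one, h, sub_self]
  have h3 : orderOf (Ideal.Quotient.mk P hζ.toInteger) = p := orderOf_eq_prime h1 h2
  have h4 := IsPrimitiveRoot.orderOf (Ideal.Quotient.mk P hζ.toInteger)
  rwa [h3] at h4


/-- (i) the norm of a degree-one prime is `≡ 1 mod p`. -/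
theorem absNorm_mod_eq_one {ζ : K} (hζ : IsPrimitiveRoot ζ p)
    (P : Ideal (𝓞 K)) (hP : P.IsPrime) (hℓ : (Ideal.absNorm P).Prime)
    (hne : Ideal.absNorm P ≠ p) : Ideal.absNorm P % p = 1 := by
  classical
  have hP0 : P ≠ ⊥ := by
    rintro rfl
    rw [Ideal.absNorm_bot] at hℓ
    exact Nat.not_prime_zero hℓ
  haveI hmax : P.IsMaximal := hP.isMaximal hP0
  letI : Field (𝓞 K ⧸ P) := Ideal.Quotient.field P
  have hcard : Nat.card (𝓞 K ⧸ P) = Ideal.absNorm P := by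
    rw [Ideal.absNorm_apply, Submodule.cardQuot_apply]
  haveI : Finite (𝓞 K ⧸ P) := Nat.finite_of_card_ne_zero (by rw [hcard]; exact hℓ.ne_zero)
  letI : Fintype (𝓞 K ⧸ P) := Fintype.ofFinite _
  have hcard' : Fintype.card (𝓞 K ⧸ P) = Ideal.absNorm P := by
    rw [← Nat.card_eq_fintype_card, hcard]
  have hprim := isPrimitiveRoot_mk hζ P hP hℓ hne
  have hne0 : Ideal.Quotient.mk P hζ.toInteger ≠ 0 := by
    intro h
    have h1 := hprim.pow_eq_one
    rw [h, zero_pow (Fact.out : p.Prime).ne_zero] at h1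
    exact zero_ne_one h1
  have h2 := FiniteField.pow_card_sub_one_eq_one (Ideal.Quotient.mk P hζ.toInteger) hne0
  rw [hcard'] at h2
  have h3 : p ∣ Ideal.absNorm P - 1 := (hprim.pow_eq_one_iff_dvd _).mp h2
  obtain ⟨c, hc⟩ := h3
  have h4 : Ideal.absNorm P = p * c + 1 := by
    have := hℓ.one_lt
    omega
  rw [h4, Nat.add_mod, Nat.mul_mod_right, zero_add, Nat.mod_mod]
  exact Nat.mod_eq_of_lt (Fact.out : p.Prime).one_lt

/-- Every integer of `K` is congruent to a rational integer modulo a prime of prime norm. -/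
theorem exists_int_sub_mem (P : Ideal (𝓞 K)) (hℓ : (Ideal.absNorm P).Prime) (x : 𝓞 K) :
    ∃ n : ℤ, x - (n : 𝓞 K) ∈ P := by
  have hcard : Nat.card (𝓞 K ⧸ P) = Ideal.absNorm P := by
    rw [Ideal.absNorm_apply, Submodule.cardQuot_apply]
  haveI : Fact (Ideal.absNorm P).Prime := ⟨hℓ⟩
  have hPtop : P ≠ ⊤ := by
    rintro rfl
    rw [Ideal.absNorm_top] at hℓ
    exact Nat.not_prime_one hℓ
  have h1 : (1 : 𝓞 K ⧸ P) ≠ 0 := by
    intro h
    apply hPtop
    rw [Ideal.eq_top_iff_one, ← Ideal.Quotient.eq_zero_iff_mem, map_one]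
    exact h
  have hmem : Ideal.Quotient.mk P x ∈ AddSubgroup.zmultiples (1 : 𝓞 K ⧸ P) :=
    mem_zmultiples_of_prime_card hcard h1
  obtain ⟨n, hn⟩ := AddSubgroup.mem_zmultiples_iff.mp hmem
  refine ⟨n, ?_⟩
  rw [← Ideal.Quotient.eq_zero_iff_mem, map_sub, map_intCast, ← hn, zsmul_one, sub_self]

/-- (iii) an automorphism fixing a degree-one prime is trivial. -/
theorem eq_one_of_map_sigmaO_eq {ζ : K} (hζ : IsPrimitiveRoot ζ p)
    (P : Ideal (𝓞 K)) (hP : P.IsPrime) (hℓ : (Ideal.absNorm P).Prime)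
    (hne : Ideal.absNorm P ≠ p) (ρ : K ≃ₐ[ℚ] K)
    (hρ : Ideal.map (sigmaO K ρ) P = P) : ρ = 1 := by
  haveI : NeZero p := ⟨(Fact.out : p.Prime).ne_zero⟩
  have hprim := isPrimitiveRoot_mk hζ P hP hℓ hne
  -- `ρ` acts trivially on the residue ring
  have htriv : ∀ x : 𝓞 K, sigmaO K ρ x - x ∈ P := by
    intro x
    obtain ⟨n, hn⟩ := exists_int_sub_mem P hℓ x
    have h1 : sigmaO K ρ (x - (n : 𝓞 K)) ∈ P := by
      have := Ideal.mem_map_of_mem (sigmaO K ρ) hn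
      rwa [hρ] at this
    rw [map_sub, map_intCast] at h1
    have : sigmaO K ρ x - x = (sigmaO K ρ x - (n : 𝓞 K)) - (x - (n : 𝓞 K)) := by ring
    rw [this]
    exact P.sub_mem h1 hn
  -- the exponent
  have hspec := IsPrimitiveRoot.autToPow_spec ℚ hζ ρ
  have hO : sigmaO K ρ hζ.toInteger = hζ.toInteger ^ (hζ.autToPow ℚ ρ : ZMod p).val := by
    apply NumberField.RingOfIntegers.ext
    show ρ ζ = _
    rw [← hspec]
    rfl
  have h2 := htriv hζ.toInteger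
  rw [hO, ← Ideal.Quotient.eq_zero_iff_mem, map_sub, map_pow, sub_eq_zero] at h2
  have h3 : (Ideal.Quotient.mk P hζ.toInteger) ^ (hζ.autToPow ℚ ρ : ZMod p).val =
      (Ideal.Quotient.mk P hζ.toInteger) ^ 1 := by rw [h2, pow_one]
  have h4 : (((hζ.autToPow ℚ ρ : ZMod p).val : ℕ) : ZMod p) = ((1 : ℕ) : ZMod p) := by
    have hfin : IsOfFinOrder (Ideal.Quotient.mk P hζ.toInteger) :=
      isOfFinOrder_iff_pow_eq_one.mpr ⟨p, (Fact.out : p.Prime).pos, hprim.pow_eq_one⟩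
    rw [hfin.pow_eq_pow_iff_modEq, ← hprim.eq_orderOf] at h3
    exact (ZMod.natCast_eq_natCast_iff _ _ _).mpr h3
  rw [ZMod.natCast_zmod_val, Nat.cast_one] at h4
  have h5 : hζ.autToPow ℚ ρ = 1 := Units.ext h4
  apply IsPrimitiveRoot.autToPow_injective ℚ hζ
  rw [h5, map_one]

end

/-- (ii) every prime containing `ℓ` is a conjugate of `P`. -/
theorem exists_map_sigmaO_eq {K : Type} [Field K] [NumberField K] [IsGalois ℚ K]
    (P : Ideal (𝓞 K)) (hP : P.IsPrime) (hℓ : (Ideal.absNorm P).Prime)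
    (Q : Ideal (𝓞 K)) (hQ : Q.IsPrime) (hQℓ : ((Ideal.absNorm P : ℕ) : 𝓞 K) ∈ Q) :
    ∃ σ : K ≃ₐ[ℚ] K, Q = Ideal.map (sigmaO K σ) P := by
  set ℓ := Ideal.absNorm P with hℓdef
  have hmaxℓ : (Ideal.span {(ℓ : ℤ)}).IsMaximal :=
    PrincipalIdealRing.isMaximal_of_irreducible
      (Nat.prime_iff_prime_int.mp hℓ).irreducible
  have hover : ∀ I : Ideal (𝓞 K), I.IsPrime → ((ℓ : ℕ) : 𝓞 K) ∈ I →
      I ∈ Ideal.primesOver (Ideal.span {(ℓ : ℤ)}) (𝓞 K) := by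
    intro I hI hIℓ
    refine ⟨hI, ⟨?_⟩⟩
    have hle : Ideal.span {(ℓ : ℤ)} ≤ I.under ℤ := by
      rw [Ideal.span_le, Set.singleton_subset_iff]
      show algebraMap ℤ (𝓞 K) (ℓ : ℤ) ∈ I
      simpa using hIℓ
    have hne : I.under ℤ ≠ ⊤ := (Ideal.comap_isPrime _ I).ne_top
    exact hmaxℓ.eq_of_le hne hle
  obtain ⟨σ, hσ⟩ := Ideal.exists_comap_galRestrict_eq ℤ ℚ K (𝓞 K)
    (hover Q hQ hQℓ) (hover P hP (Ideal.absNorm_mem P))
  refine ⟨σ, ?_⟩
  have h1 : Ideal.map (sigmaO K σ) P = Ideal.map (galRestrict ℤ ℚ K (𝓞 K) σ) P := by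
    apply ideal_map_congr_fun
    intro x
    apply NumberField.RingOfIntegers.ext
    exact (algebraMap_galRestrict_apply ℤ σ x).symm
  rw [h1, ← hσ]
  exact (Ideal.map_comap_of_surjective _ (galRestrict ℤ ℚ K (𝓞 K) σ).surjective Q).symm


/-- **C3-e**. -/
theorem primesOver : Fermat.Agent.H76.PrimesOverStatement := by
  intro p _ hp5 K _ _ _ P hP
  obtain ⟨hprime, hℓ, hne⟩ := hP
  haveI : NeZero p := ⟨(Fact.out : p.Prime).ne_zero⟩
  have hζ : IsPrimitiveRoot (IsCyclotomicExtension.zeta p ℚ K) p :=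
    IsCyclotomicExtension.zeta_spec p ℚ K
  refine ⟨absNorm_mod_eq_one hζ P hprime hℓ hne, ?_, ?_⟩
  · intro Q hQ hQℓ
    haveI : IsGalois ℚ K := IsCyclotomicExtension.isGalois {p} ℚ K
    exact exists_map_sigmaO_eq (P : Ideal (𝓞 K)) hprime hℓ Q hQ hQℓ
  · intro σ σ' h
    have h' : Ideal.map (sigmaO K σ) (P : Ideal (𝓞 K)) =
        Ideal.map (sigmaO K σ') (P : Ideal (𝓞 K)) := h
    have h1 : Ideal.map (sigmaO K (σ⁻¹ * σ')) (P : Ideal (𝓞 K)) = P := by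
      rw [map_sigmaO_mul, ← h', ← map_sigmaO_mul, inv_mul_cancel, map_sigmaO_one]
    have h2 := eq_one_of_map_sigmaO_eq hζ P hprime hℓ hne (σ⁻¹ * σ') h1
    exact (inv_mul_eq_one.mp h2)

end Fermat.Agent.H34
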