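import Fermat.Agent.H19.Gens
import Fermat.Agent.H93.GlueODE
import Fermat.Agent.H7.DimBridge

/-!
# AS-2 (P-DIM / S20): ODE glue — `det Φ` is nowhere zero and `det Φ ^ 12 = c Δ ^ K`
-/

set_option autoImplicit false

open UpperHalfPlane hiding I
open scoped Manifold MatrixGroups ModularForm Topology

namespace Fermat.Agent.H34

open Derivative CongruenceSubgroup ModularForm
open Fermat.Agent.H19 Fermat.Agent.H93 Fermat.Agent.H7

/-- Structure constants of the Serre derivative in a free generating system. -/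
theorem exists_structure_constants (N : ℕ) [NeZero N] {k : Q N → ℤ} {f : Q N → ℍ → ℂ}
    (h : IsGens N (Q N) k f) :
    ∃ a : Q N → Q N → ℍ → ℂ,
      (∀ l j, ∃ A : ModularForm 𝒮ℒ (k j + 2 - k l), (A : ℍ → ℂ) = a l j) ∧
      (∀ j, serreDerivative (k j) (f j) = ∑ l, a l j * f l) := by
  classical
  have hgen : ∀ j, ∃ (s : Finset (Q N)) (r : Q N → ℍ → ℂ),
      (∀ l ∈ s, IsMF 1 (k j + 2 - k l) (r l)) ∧
        serreDerivative (k j) (f j) = ∑ l ∈ s, r l * f l :=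
    fun j => h.gen (k j + 2) _ (isMF_serreDerivative (h.isMF j))
  choose s r hr hsum using hgen
  refine ⟨fun l j => if l ∈ s j then r j l else 0, ?_, ?_⟩
  · intro l j
    by_cases hl : l ∈ s j
    · exact ⟨toModularFormOne (hr j l hl), by simp only [hl, if_true]; rfl⟩
    · exact ⟨toModularFormOne (IsMF.zero), by simp only [hl, if_false]; rfl⟩
  · intro j
    rw [hsum j, ← Finset.sum_subset (Finset.subset_univ (s j))]
    · refine Finset.sum_congr rfl fun l hl => ?_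
      simp only [hl, if_true]
    · intro l _ hl
      simp only [hl, if_false, zero_mul]

theorem detFun_fundMatrix_refl (N : ℕ) [NeZero N] (k : Q N → ℤ) (f : Q N → ℍ → ℂ) (z : ℍ) :
    detFun (fundMatrix N (Equiv.refl (Q N)) k f) z = (Phi N k f z).det := rfl

theorem det_Phi_ne_zero (N : ℕ) [NeZero N] {k : Q N → ℤ} {f : Q N → ℍ → ℂ}
    (h : IsGens N (Q N) k f) (h₁ : ∃ z₁ : ℍ, (Phi N k f z₁).det ≠ 0) (z : ℍ) :
    (Phi N k f z).det ≠ 0 := by
  obtain ⟨a, ha, hϑ⟩ := exists_structure_constants N h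
  obtain ⟨z₁, hz₁⟩ := h₁
  rw [← detFun_fundMatrix_refl] at hz₁ ⊢
  exact detFun_fundMatrix_ne_zero (Equiv.refl (Q N)) k f h.isMF a ha hϑ hz₁ z

theorem det_Phi_pow (N : ℕ) [NeZero N] {k : Q N → ℤ} {f : Q N → ℍ → ℂ}
    (h : IsGens N (Q N) k f) (h₁ : ∃ z₁ : ℍ, (Phi N k f z₁).det ≠ 0) :
    ∃ c : ℂ, c ≠ 0 ∧ ∀ z : ℍ,
      (Phi N k f z).det ^ 12 = c * ModularForm.discriminant z ^ (∑ j, k j) := by
  obtain ⟨a, ha, hϑ⟩ := exists_structure_constants N h
  obtain ⟨z₁, hz₁⟩ := h₁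
  have hΔ : ModularForm.discriminant z₁ ^ (∑ j, k j) ≠ 0 :=
    zpow_ne_zero _ (discriminant_ne_zero z₁)
  refine ⟨(Phi N k f z₁).det ^ 12 / ModularForm.discriminant z₁ ^ (∑ j, k j),
    div_ne_zero (pow_ne_zero _ hz₁) hΔ, fun z => ?_⟩
  have key := detFun_fundMatrix_pow_twelve (Equiv.refl (Q N)) k f h.isMF a ha hϑ z z₁
  rw [detFun_fundMatrix_refl, detFun_fundMatrix_refl] at key
  rw [div_mul_eq_mul_div, eq_div_iff hΔ]
  exact key

end Fermat.Agent.H34
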