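import Fermat.Agent.H78.ARTDefs2
import Fermat.Agent.H56.ProRep.TestAlgebras

/-!
# H78-ART-2 (P-DEFRING / S53): finitely many coordinates generate every admissible quotient
-/

set_option autoImplicit false
set_option linter.style.haveILetI false
set_option linter.unusedSectionVars false

noncomputable section

namespace Fermat.Agent.H34

open IsLocalRing Fermat.Agent.H78

/-- A finite set of functions is separated by finitely many points. -/
theorem exists_separating_finset {X Y : Type*} (T : Set (X → Y)) (hT : T.Finite) :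
    ∃ F : Finset X, ∀ t ∈ T, ∀ t' ∈ T, (∀ f ∈ F, t f = t' f) → t = t' := by
  classical
  refine ⟨(hT.toFinset ×ˢ hT.toFinset).biUnion
    (fun p => if h : ∃ x, p.1 x ≠ p.2 x then {h.choose} else ∅), ?_⟩
  intro t ht t' ht' hF
  by_contra hne
  have hex : ∃ x, t x ≠ t' x := Function.ne_iff.mp hne
  apply hex.choose_spec
  apply hF
  rw [Finset.mem_biUnion]
  refine ⟨(t, t'), ?_, ?_⟩
  · rw [Finset.mem_product]
    exact ⟨hT.mem_toFinset.mpr ht, hT.mem_toFinset.mpr ht'⟩
  · rw [dif_pos hex]
    exact Finset.mem_singleton_self _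

/-- A ring hom which is surjective modulo the extension of an ideal whose extension is
nilpotent is surjective. -/
theorem surjective_of_map_pow_eq_bot {B A : Type*} [CommRing B] [CommRing A] (φ : B →+* A)
    (𝔫 : Ideal B) (h1 : ∀ z : A, ∃ b : B, z - φ b ∈ 𝔫.map φ) (N : ℕ)
    (hN : (𝔫.map φ) ^ N = ⊥) : Function.Surjective φ := by
  have key : ∀ n : ℕ, ∀ w ∈ (𝔫.map φ) ^ n, ∃ b ∈ 𝔫 ^ n, w - φ b ∈ (𝔫.map φ) ^ (n + 1) := by
    intro n w hw
    rw [← Ideal.map_pow] at hw
    refine Submodule.span_induction (p := fun w _ => ∃ b ∈ 𝔫 ^ n, w - φ b ∈ (𝔫.map φ) ^ (n + 1))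
      ?_ ?_ ?_ ?_ hw
    · rintro _ ⟨u, hu, rfl⟩
      exact ⟨u, hu, by rw [sub_self]; exact Ideal.zero_mem _⟩
    · exact ⟨0, Ideal.zero_mem _, by rw [map_zero, sub_self]; exact Ideal.zero_mem _⟩
    · rintro w w' _ _ ⟨b, hb, hwb⟩ ⟨b', hb', hwb'⟩
      refine ⟨b + b', Ideal.add_mem _ hb hb', ?_⟩
      have : w + w' - φ (b + b') = (w - φ b) + (w' - φ b') := by rw [map_add]; ring
      rw [this]
      exact Ideal.add_mem _ hwb hwb'
    · rintro a w _ ⟨b, hb, hwb⟩
      obtain ⟨ba, hba⟩ := h1 a
      refine ⟨ba * b, Ideal.mul_mem_left _ _ hb, ?_⟩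
      have : a • w - φ (ba * b) = a * (w - φ b) + (a - φ ba) * φ b := by
        rw [map_mul, smul_eq_mul]; ring
      rw [this]
      refine Ideal.add_mem _ (Ideal.mul_mem_left _ _ hwb) ?_
      rw [pow_succ']
      refine Ideal.mul_mem_mul hba ?_
      rw [← Ideal.map_pow]
      exact Ideal.mem_map_of_mem _ hb
  have main : ∀ n : ℕ, ∀ z : A, ∃ b : B, z - φ b ∈ (𝔫.map φ) ^ n := by
    intro n
    induction n with
    | zero => intro z; exact ⟨0, by rw [pow_zero, Ideal.one_eq_top]; exact Submodule.mem_top⟩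
    | succ n ih =>
      intro z
      obtain ⟨b, hb⟩ := ih z
      obtain ⟨b', -, hb'⟩ := key n _ hb
      refine ⟨b + b', ?_⟩
      have : z - φ (b + b') = z - φ b - φ b' := by rw [map_add]; ring
      rw [this]
      exact hb'
  intro z
  obtain ⟨b, hb⟩ := main N z
  rw [hN, Ideal.mem_bot, sub_eq_zero] at hb
  exact ⟨b, hb.symm⟩


section tangent

variable {O : Type} [CommRing O] [IsLocalRing O]
  {A : Type} [CommRing A] [IsLocalRing A] [Algebra O A]

/-- For a test algebra `A`, the residue map of `A` with values in the residue field of `O`. -/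
theorem exists_residue_hom (hA : GaloisRep.IsArtinianTestAlgebra O A) :
    ∃ ρ : A →+* ResidueField O, (∀ r : O, ρ (algebraMap O A r) = residue O r) ∧
      (∀ z : A, ρ z = 0 ↔ z ∈ maximalIdeal A) := by
  haveI := hA.isLocalHom
  let ι : ResidueField O →+* ResidueField A := ResidueField.map (algebraMap O A)
  have hι : Function.Bijective ι := ⟨ι.injective, fun y => by
    obtain ⟨r, hr⟩ := hA.residue_surjective y
    exact ⟨residue O r, by rw [ResidueField.map_residue]; exact hr⟩⟩
  let e := RingEquiv.ofBijective ι hι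
  refine ⟨(e.symm : ResidueField A →+* ResidueField O).comp (residue A), fun r => ?_, fun z => ?_⟩
  · simp only [RingHom.comp_apply]
    rw [RingEquiv.coe_toRingHom, RingEquiv.symm_apply_eq]
    exact (ResidueField.map_residue _ r).symm
  · simp only [RingHom.comp_apply, RingEquiv.coe_toRingHom]
    rw [map_eq_zero_iff _ e.symm.injective, residue_eq_zero_iff]


/-- A functional on an `O`-module quotient killed by the maximal ideal, with values in the
residue field, not vanishing at a given element outside the submodule. -/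
theorem exists_functional (I' : Submodule O A)
    (htors : ∀ r ∈ maximalIdeal O, ∀ z : A, algebraMap O A r * z ∈ I') (y : A) (hy : y ∉ I') :
    ∃ D : A → ResidueField O, (∀ z w, D (z + w) = D z + D w) ∧
      (∀ (r : O) (z : A), D (algebraMap O A r * z) = residue O r * D z) ∧
      (∀ z ∈ I', D z = 0) ∧ D y ≠ 0 := by
  classical
  have htors' : Module.IsTorsionBySet O (A ⧸ I') (maximalIdeal O : Set O) := by
    rintro w ⟨r, hr⟩
    obtain ⟨z, rfl⟩ := Submodule.Quotient.mk_surjective _ w
    show r • Submodule.Quotient.mk z = 0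
    rw [← Submodule.Quotient.mk_smul, Submodule.Quotient.mk_eq_zero, Algebra.smul_def]
    exact htors r hr z
  letI modW : Module (ResidueField O) (A ⧸ I') := htors'.module
  have hmk : ∀ z : A, (Submodule.Quotient.mk z : A ⧸ I') = 0 ↔ z ∈ I' :=
    fun z => Submodule.Quotient.mk_eq_zero I'
  obtain ⟨lam, hlam⟩ : ∃ lam : Module.Dual (ResidueField O) (A ⧸ I'),
      lam (Submodule.Quotient.mk y) ≠ 0 :=
    Module.Projective.exists_dual_ne_zero _ (by rw [ne_eq, hmk]; exact hy)
  refine ⟨fun z => lam (Submodule.Quotient.mk z), ?_, ?_, ?_, hlam⟩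
  · intro z w
    show lam (Submodule.Quotient.mk (z + w)) = _
    rw [Submodule.Quotient.mk_add, map_add]
  · intro r z
    have : (Submodule.Quotient.mk (algebraMap O A r * z) : A ⧸ I') =
        (residue O r) • (Submodule.Quotient.mk z : A ⧸ I') := by
      rw [← Algebra.smul_def, Submodule.Quotient.mk_smul]
      rfl
    show lam (Submodule.Quotient.mk (algebraMap O A r * z)) = _
    rw [this, map_smul, smul_eq_mul]
  · intro z hz
    show lam (Submodule.Quotient.mk z) = 0
    rw [(hmk z).mpr hz, map_zero]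

/-- The algebra hom `A → k[ε]` attached to a residue map and a derivation. -/
theorem exists_algHom_of_derivation (ρ : A →+* ResidueField O)
    (hρ1 : ∀ r : O, ρ (algebraMap O A r) = residue O r)
    (D : A → ResidueField O) (hD0 : ∀ r : O, D (algebraMap O A r) = 0)
    (hDadd : ∀ z w, D (z + w) = D z + D w)
    (hDmul : ∀ z w, D (z * w) = ρ z * D w + ρ w * D z) :
    letI := dualNumberAlgebra O
    ∃ h : A →ₐ[O] DualNumber (ResidueField O),
      ∀ z, h z = TrivSqZeroExt.inl (ρ z) + TrivSqZeroExt.inr (D z) := by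
  letI algD : Algebra O (DualNumber (ResidueField O)) := dualNumberAlgebra O
  have hD1 : D 1 = 0 := by
    have := hD0 1
    rwa [map_one] at this
  have hDzero : D 0 = 0 := by
    have := hD0 0
    rwa [map_zero] at this
  refine ⟨{ toFun := fun z => TrivSqZeroExt.inl (ρ z) + TrivSqZeroExt.inr (D z)
            map_one' := ?_
            map_mul' := ?_
            map_zero' := ?_
            map_add' := ?_
            commutes' := ?_ }, fun z => rfl⟩
  · rw [hD1, map_one]
    refine TrivSqZeroExt.ext ?_ ?_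
    · simp only [TrivSqZeroExt.fst_add, TrivSqZeroExt.fst_inl, TrivSqZeroExt.fst_inr,
        TrivSqZeroExt.fst_one, add_zero]
    · simp only [TrivSqZeroExt.snd_add, TrivSqZeroExt.snd_inl, TrivSqZeroExt.snd_inr,
        TrivSqZeroExt.snd_one, add_zero]
  · intro z w
    rw [hDmul, map_mul]
    refine TrivSqZeroExt.ext ?_ ?_
    · simp only [TrivSqZeroExt.fst_add, TrivSqZeroExt.fst_inl, TrivSqZeroExt.fst_inr,
        TrivSqZeroExt.fst_mul, add_zero]
    · simp only [TrivSqZeroExt.snd_add, TrivSqZeroExt.snd_inl, TrivSqZeroExt.snd_inr,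
        TrivSqZeroExt.snd_mul, TrivSqZeroExt.fst_add, TrivSqZeroExt.fst_inl,
        TrivSqZeroExt.fst_inr, add_zero, zero_add, smul_eq_mul, MulOpposite.smul_eq_mul_unop,
        MulOpposite.unop_op]
      ring
  · rw [hDzero, map_zero]
    refine TrivSqZeroExt.ext ?_ ?_
    · simp only [TrivSqZeroExt.fst_add, TrivSqZeroExt.fst_inl, TrivSqZeroExt.fst_inr,
        TrivSqZeroExt.fst_zero, add_zero]
    · simp only [TrivSqZeroExt.snd_add, TrivSqZeroExt.snd_inl, TrivSqZeroExt.snd_inr,
        TrivSqZeroExt.snd_zero, add_zero]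
  · intro z w
    rw [hDadd, map_add]
    refine TrivSqZeroExt.ext ?_ ?_
    · simp only [TrivSqZeroExt.fst_add, TrivSqZeroExt.fst_inl, TrivSqZeroExt.fst_inr, add_zero]
    · simp only [TrivSqZeroExt.snd_add, TrivSqZeroExt.snd_inl, TrivSqZeroExt.snd_inr, zero_add]
  · intro r
    rw [hρ1, hD0 r]
    show _ = algebraMap (ResidueField O) (DualNumber (ResidueField O)) (residue O r)
    refine TrivSqZeroExt.ext ?_ ?_
    · simp only [TrivSqZeroExt.fst_add, TrivSqZeroExt.fst_inl, TrivSqZeroExt.fst_inr, add_zero,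
        TrivSqZeroExt.algebraMap_eq_inl]
    · simp only [TrivSqZeroExt.snd_add, TrivSqZeroExt.snd_inl, TrivSqZeroExt.snd_inr, add_zero,
        TrivSqZeroExt.algebraMap_eq_inl]

/-- Key step of the tangent-space criterion: `m ≤ K ⊔ m²`. -/
theorem maximalIdeal_le_sup_sq (hA : GaloisRep.IsArtinianTestAlgebra O A)
    (B : Subalgebra O A)
    (hB : letI := dualNumberAlgebra O
      ∀ h h' : A →ₐ[O] DualNumber (ResidueField O), (∀ b ∈ B, h b = h' b) → h = h') :
    maximalIdeal A ≤ ((maximalIdeal A).comap (algebraMap B A)).map (algebraMap B A) ⊔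
      maximalIdeal A * maximalIdeal A := by
  classical
  letI algD : Algebra O (DualNumber (ResidueField O)) := dualNumberAlgebra O
  haveI : IsLocalHom (algebraMap O A) := hA.isLocalHom
  obtain ⟨ρ, hρ1, hρ2⟩ := exists_residue_hom hA
  set m := maximalIdeal A with hm
  set 𝔫 : Ideal B := m.comap (algebraMap B A) with h𝔫
  set K : Ideal A := 𝔫.map (algebraMap B A) with hK
  have ha : ∀ z : A, ∃ r : O, z - algebraMap O A r ∈ m := by
    intro z
    obtain ⟨r, hr⟩ := hA.residue_surjective (residue A z)
    refine ⟨r, ?_⟩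
    rw [hm, ← residue_eq_zero_iff, map_sub, sub_eq_zero]
    exact hr.symm
  have hKm : K ≤ m := Ideal.map_comap_le
  have hBK : ∀ b ∈ B, b ∈ m → b ∈ K := fun b hb hbm =>
    Ideal.mem_map_of_mem (algebraMap B A) (show (⟨b, hb⟩ : B) ∈ 𝔫 from hbm)
  have hOm : ∀ r : O, r ∈ maximalIdeal O → algebraMap O A r ∈ K := by
    intro r hr
    refine hBK _ (B.algebraMap_mem r) ?_
    rw [hm, mem_maximalIdeal, mem_nonunits_iff]
    intro hu
    exact (mem_maximalIdeal r).mp hr (isUnit_of_map_unit (algebraMap O A) r hu)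
  by_contra hcon
  obtain ⟨y, hym, hyI⟩ := SetLike.not_le_iff_exists.mp hcon
  set I : Ideal A := K ⊔ m * m with hI
  set I' : Submodule O A := I.restrictScalars O ⊔ LinearMap.range (Algebra.linearMap O A)
    with hI'
  have hII' : ∀ z ∈ I, z ∈ I' := fun z hz => Submodule.mem_sup_left hz
  have hOI' : ∀ r : O, algebraMap O A r ∈ I' := fun r => Submodule.mem_sup_right ⟨r, rfl⟩
  have hBI' : ∀ b ∈ B, b ∈ I' := by
    intro b hb
    obtain ⟨r, hr⟩ := ha b
    have : b = (b - algebraMap O A r) + algebraMap O A r := by ring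
    rw [this]
    exact I'.add_mem
      (hII' _ (Submodule.mem_sup_left (hBK _ (B.sub_mem hb (B.algebraMap_mem r)) hr)))
      (hOI' r)
  have hIm : I ≤ m := sup_le hKm Ideal.mul_le_right
  have hyI' : y ∉ I' := by
    intro hy
    obtain ⟨i, hi, o, ⟨r, rfl⟩, hsum⟩ := Submodule.mem_sup.mp hy
    have hi' : i ∈ I := hi
    have h1 : algebraMap O A r ∈ m := by
      have : algebraMap O A r = y - i := by
        rw [← hsum]; simp
      rw [this]
      exact m.sub_mem hym (hIm hi')
    have h2 : r ∈ maximalIdeal O := by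
      rw [mem_maximalIdeal, mem_nonunits_iff]
      intro hu
      exact (mem_maximalIdeal _).mp h1 (hu.map (algebraMap O A))
    apply hyI
    rw [← hsum]
    exact I.add_mem hi' (Submodule.mem_sup_left (hOm r h2))
  obtain ⟨D, hDadd, hDsmul, hDI', hDy⟩ := exists_functional I'
    (fun r hr z => hII' _ (Submodule.mem_sup_left (K.mul_mem_right z (hOm r hr)))) y hyI'
  have hDder : ∀ z w : A, D (z * w) = ρ z * D w + ρ w * D z := by
    intro z w
    obtain ⟨r, hr⟩ := ha z
    obtain ⟨s, hs⟩ := ha w
    have hρz : ρ z = residue O r := by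
      have : ρ (z - algebraMap O A r) = 0 := (hρ2 _).mpr hr
      rw [map_sub, sub_eq_zero, hρ1] at this
      exact this
    have hρw : ρ w = residue O s := by
      have : ρ (w - algebraMap O A s) = 0 := (hρ2 _).mpr hs
      rw [map_sub, sub_eq_zero, hρ1] at this
      exact this
    have e1 : z * w = algebraMap O A r * w + (algebraMap O A s * (z - algebraMap O A r) +
        (z - algebraMap O A r) * (w - algebraMap O A s)) := by ring
    have e2 : z = (z - algebraMap O A r) + algebraMap O A r := by ring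
    have h3 : D ((z - algebraMap O A r) * (w - algebraMap O A s)) = 0 :=
      hDI' _ (hII' _ (Submodule.mem_sup_right (Ideal.mul_mem_mul hr hs)))
    have h4 : D z = D (z - algebraMap O A r) := by
      conv_lhs => rw [e2]
      rw [hDadd, hDI' _ (hOI' r), add_zero]
    rw [e1, hDadd, hDadd, hDsmul, hDsmul, h3, add_zero, hρz, hρw, h4]
  obtain ⟨h1, hh1⟩ := exists_algHom_of_derivation ρ hρ1 D (fun r => hDI' _ (hOI' r)) hDadd hDder
  obtain ⟨h0, hh0⟩ := exists_algHom_of_derivation ρ hρ1 (fun _ => 0) (fun _ => rfl)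
    (fun _ _ => (add_zero _).symm) (fun _ _ => by simp)
  have heq : h1 = h0 := by
    apply hB
    intro b hb
    rw [hh1, hh0, hDI' b (hBI' b hb)]
  apply hDy
  have h2 := congrArg TrivSqZeroExt.snd (hh1 y)
  rw [heq, hh0] at h2
  simpa using h2.symm

/-- Tangent-space criterion: a subalgebra `B` of a test algebra `A` such that two algebra homs
`A → k[ε]` agreeing on `B` are equal, is everything. -/
theorem eq_top_of_tangent_separated (hA : GaloisRep.IsArtinianTestAlgebra O A)
    (B : Subalgebra O A)
    (hB : letI := dualNumberAlgebra O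
      ∀ h h' : A →ₐ[O] DualNumber (ResidueField O), (∀ b ∈ B, h b = h' b) → h = h') :
    B = ⊤ := by
  classical
  haveI : IsArtinianRing A := hA.isArtinian
  have hb := maximalIdeal_le_sup_sq hA B hB
  set m := maximalIdeal A with hm
  set 𝔫 : Ideal B := m.comap (algebraMap B A) with h𝔫
  set K : Ideal A := 𝔫.map (algebraMap B A) with hK
  have ha : ∀ z : A, ∃ r : O, z - algebraMap O A r ∈ m := by
    intro z
    obtain ⟨r, hr⟩ := hA.residue_surjective (residue A z)
    refine ⟨r, ?_⟩
    rw [hm, ← residue_eq_zero_iff, map_sub, sub_eq_zero]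
    exact hr.symm
  have hKm : K ≤ m := Ideal.map_comap_le
  -- Nakayama
  have hc : m ≤ K := by
    refine Submodule.le_of_le_smul_of_le_jacobson_bot (IsNoetherian.noetherian m) ?_ hb
    rw [IsLocalRing.jacobson_eq_maximalIdeal ⊥ bot_ne_top]
  have hKeq : K = m := le_antisymm hKm hc
  obtain ⟨N, hN⟩ := (isArtinianRing_iff_isNilpotent_maximalIdeal A).mp ‹_›
  have hsurj : Function.Surjective (algebraMap B A) := by
    refine surjective_of_map_pow_eq_bot (algebraMap B A) 𝔫 (fun z => ?_) N ?_
    · obtain ⟨r, hr⟩ := ha z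
      refine ⟨algebraMap O B r, ?_⟩
      show z - algebraMap O A r ∈ K
      rw [hKeq]
      exact hr
    · show K ^ N = ⊥
      rw [hKeq]
      exact hN
  rw [eq_top_iff]
  intro z _
  obtain ⟨b, rfl⟩ := hsurj z
  exact b.2

end tangent

section final

variable {O : Type} [CommRing O] [IsLocalRing O] {X : Type} {c : X → O} {P : PointPred O X}

/-- If `F` separates the tangent vectors and the coordinates `x` generate the test algebra `A`,
then the coordinates in `F` already generate `A`. -/
theorem adjoin_image_eq_top (hP : IsProRepresentablePred O c P) (F : Finset X)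
    (hF : letI := dualNumberAlgebra O
      ∀ t t' : X → DualNumber (ResidueField O), P t → P t' → (∀ f ∈ F, t f = t' f) → t = t')
    {A : Type} [CommRing A] [IsLocalRing A] [Algebra O A]
    (hA : GaloisRep.IsArtinianTestAlgebra O A)
    (x : X → A) (hx : P x) (hgen : Algebra.adjoin O (Set.range x) = ⊤) :
    Algebra.adjoin O (x '' (F : Set X)) = ⊤ := by
  letI algD : Algebra O (DualNumber (ResidueField O)) := dualNumberAlgebra O
  apply eq_top_of_tangent_separated hA
  intro h h' hagree
  have hD : GaloisRep.IsArtinianTestAlgebra O (DualNumber (ResidueField O)) :=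
    Fermat.Agent.H56.test_dualNumber O
  have hl : IsLocalHom (h : A →+* DualNumber (ResidueField O)) :=
    Fermat.Agent.H56.isLocalHom_of_test O A _ hD.residue_surjective h
  have hl' : IsLocalHom (h' : A →+* DualNumber (ResidueField O)) :=
    Fermat.Agent.H56.isLocalHom_of_test O A _ hD.residue_surjective h'
  have e : (h ∘ x) = (h' ∘ x) :=
    hF _ _ (hP.push hA hD h hl x hx) (hP.push hA hD h' hl' x hx)
      (fun f hf => hagree _ (Algebra.subset_adjoin ⟨f, hf, rfl⟩))
  apply AlgHom.ext_of_adjoin_eq_top hgen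
  rintro _ ⟨u, rfl⟩
  exact congrFun e u

/-- The tautological coordinates generate the quotient. -/
theorem adjoin_range_taut (a : Ideal (MvPolynomial X O)) :
    Algebra.adjoin O (Set.range (taut a)) = ⊤ := by
  have h1 : Set.range (taut a) = (Ideal.Quotient.mkₐ O a) '' (Set.range MvPolynomial.X) := by
    ext z
    constructor
    · rintro ⟨f, rfl⟩
      exact ⟨MvPolynomial.X f, ⟨f, rfl⟩, rfl⟩
    · rintro ⟨_, ⟨f, rfl⟩, rfl⟩
      exact ⟨f, rfl⟩
  rw [h1, ← AlgHom.map_adjoin, MvPolynomial.adjoin_range_X, Algebra.map_top,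
    AlgHom.range_eq_top]
  exact Ideal.Quotient.mkₐ_surjective O a

/-- **H78-ART-2**: finitely many coordinates generate every admissible quotient. -/
theorem exists_finset_gen' (hP : IsProRepresentablePred O c P) :
    ∃ F : Finset X, ∀ a : Ideal (MvPolynomial X O), Admissible P a →
      Algebra.adjoin O ((taut a) '' (F : Set X)) = ⊤ := by
  letI algD : Algebra O (DualNumber (ResidueField O)) := dualNumberAlgebra O
  have hfin : Set.Finite {t : X → DualNumber (ResidueField O) | P t} :=
    Set.finite_coe_iff.mp hP.tfin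
  obtain ⟨F, hF⟩ := exists_separating_finset _ hfin
  refine ⟨F, fun a ha => ?_⟩
  obtain ⟨hloc, hA, hPt⟩ := ha
  exact adjoin_image_eq_top hP F (fun t t' ht ht' h => hF t ht t' ht' h) hA (taut a) hPt
    (adjoin_range_taut a)

end final

/-- **H78-ART-2**, exact statement. -/
theorem exists_finset_gen {O : Type} [CommRing O] [IsDomain O] [IsDiscreteValuationRing O]
    [IsAdicComplete (maximalIdeal O) O] [Finite (ResidueField O)] {X : Type} {c : X → O}
    {P : PointPred O X} (hP : IsProRepresentablePred O c P) :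
    ∃ F : Finset X, ∀ a : Ideal (MvPolynomial X O), Admissible P a →
      Algebra.adjoin O ((taut a) '' (F : Set X)) = ⊤ :=
  exists_finset_gen' hP

end Fermat.Agent.H34
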