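import Mathlib
import Fermat.Prelude.Def_ModularForm_HeckeOperator

/-!
# Matrix identities for the Fricke involution at prime level (helper34, P-S16)

`frickeGL p = S * diag(p, 1) = !![0, -1; p, 0]` and the identities
`fricke * T = γ * fricke`, `fricke * S = (-1) * heckeMatrix p 0`,
`heckeMatrix p 0 * S = fricke`, `heckeMatrix p j * S = γ * heckeMatrix p j'` (`j j' ≡ -1 mod p`),
with `γ ∈ Γ₀(p)`.  They show that `H ∣ fricke + heckeU 2 p H` is invariant under `S` and `T`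
for `H` invariant under `Γ₀(p)`.
-/

namespace Fermat.Agent.H34

open UpperHalfPlane CongruenceSubgroup ModularForm Matrix.SpecialLinearGroup
open scoped MatrixGroups ModularForm Real

/-- Integer matrix of determinant one, as an element of `SL(2, ℤ)`. -/
def slOf (a b c d : ℤ) (h : a * d - b * c = 1) : SL(2, ℤ) :=
  ⟨!![a, b; c, d], by rw [Matrix.det_fin_two_of]; exact h⟩

lemma val_slOf (a b c d : ℤ) (h : a * d - b * c = 1) :
    ((mapGL ℝ (slOf a b c d h) : GL (Fin 2) ℝ) : Matrix (Fin 2) (Fin 2) ℝ) =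
      !![(a : ℝ), b; c, d] := by
  ext i j; fin_cases i <;> fin_cases j <;> rfl

lemma slOf_mem_Gamma0 (p : ℕ) (a b c d : ℤ) (h : a * d - b * c = 1) (hc : (p : ℤ) ∣ c) :
    slOf a b c d h ∈ Gamma0 p := by
  rw [Gamma0_mem]
  simpa [slOf] using (ZMod.intCast_zmod_eq_zero_iff_dvd c p).mpr hc

lemma S_eq_slOf : ModularGroup.S = slOf 0 (-1) 1 0 (by norm_num) := rfl

lemma T_eq_slOf : ModularGroup.T = slOf 1 1 0 1 (by norm_num) := rfl

lemma T_zpow_eq_slOf (j : ℤ) : ModularGroup.T ^ j = slOf 1 j 0 1 (by norm_num) := by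
  ext i k
  rw [ModularGroup.coe_T_zpow]
  rfl

/-- The Fricke-type matrix `S * diag(p, 1) = !![0, -1; p, 0]`. -/
noncomputable def frickeGL (p : ℕ) : GL (Fin 2) ℝ :=
  mapGL ℝ ModularGroup.S * heckeDiagMatrix p

lemma val_frickeGL {p : ℕ} (hp : p ≠ 0) :
    (frickeGL p : Matrix (Fin 2) (Fin 2) ℝ) = !![0, -1; (p : ℝ), 0] := by
  rw [frickeGL, Units.val_mul, val_heckeDiagMatrix hp, S_eq_slOf, val_slOf, Matrix.mul_fin_two]
  simp

lemma frickeGL_mul_T {p : ℕ} (hp : p ≠ 0) :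
    frickeGL p * mapGL ℝ ModularGroup.T =
      mapGL ℝ (slOf 1 0 (-p) 1 (by ring)) * frickeGL p := by
  apply Units.ext
  rw [Units.val_mul, Units.val_mul, val_frickeGL hp, T_eq_slOf, val_slOf, val_slOf,
    Matrix.mul_fin_two, Matrix.mul_fin_two]
  simp

lemma frickeGL_mul_S {p : ℕ} (hp : p ≠ 0) :
    frickeGL p * mapGL ℝ ModularGroup.S =
      mapGL ℝ (slOf (-1) 0 0 (-1) (by ring)) * heckeMatrix p 0 := by
  apply Units.ext
  rw [Units.val_mul, Units.val_mul, val_frickeGL hp, S_eq_slOf, val_slOf, val_slOf,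
    val_heckeMatrix hp, Matrix.mul_fin_two, Matrix.mul_fin_two]
  simp

lemma heckeMatrix_zero_mul_S {p : ℕ} (hp : p ≠ 0) :
    heckeMatrix p 0 * mapGL ℝ ModularGroup.S = frickeGL p := by
  apply Units.ext
  rw [Units.val_mul, val_frickeGL hp, S_eq_slOf, val_slOf,
    val_heckeMatrix hp, Matrix.mul_fin_two]
  simp

lemma heckeMatrix_mul_S {p : ℕ} (hp : p ≠ 0) (j j' : ℕ) (m : ℤ)
    (h : (j : ℤ) * j' + 1 = p * m) :
    heckeMatrix p j * mapGL ℝ ModularGroup.S =
      mapGL ℝ (slOf j (-m) p (-j') (by linarith)) * heckeMatrix p j' := by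
  apply Units.ext
  rw [Units.val_mul, Units.val_mul, S_eq_slOf, val_slOf, val_slOf,
    val_heckeMatrix hp, val_heckeMatrix hp, Matrix.mul_fin_two, Matrix.mul_fin_two]
  have h' : (j : ℝ) * j' + 1 = p * m := by exact_mod_cast h
  simp
  constructor
  · linarith
  · ring

end Fermat.Agent.H34
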