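import Mathlib
import Fermat.Agent.H34.S16Fricke

/-!
# Cosets of `Γ₀(p)` in `SL(2, ℤ)` (helper34, P-S16 UB-5)

Every `γ ∉ Γ₀(p)` lies in `Γ₀(p) · S T^j` for some `0 ≤ j < p`, and the `S T^j`, `0 ≤ j < p`, are
pairwise inequivalent and not in `Γ₀(p)`.
-/

namespace Fermat.Agent.H34

open CongruenceSubgroup Matrix.SpecialLinearGroup
open scoped MatrixGroups

lemma slOf_mul (a b c d a' b' c' d' : ℤ) (h : a * d - b * c = 1) (h' : a' * d' - b' * c' = 1) :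
    slOf a b c d h * slOf a' b' c' d' h' =
      slOf (a * a' + b * c') (a * b' + b * d') (c * a' + d * c') (c * b' + d * d')
        (by linear_combination (a' * d' - b' * c') * h + h') := by
  apply Subtype.ext
  rw [Matrix.SpecialLinearGroup.coe_mul]
  show !![a, b; c, d] * !![a', b'; c', d'] = !![_, _; _, _]
  rw [Matrix.mul_fin_two]

lemma slOf_congr {a b c d a' b' c' d' : ℤ} (h : a * d - b * c = 1) (ha : a = a') (hb : b = b')
    (hc : c = c') (hd : d = d') :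
    slOf a b c d h = slOf a' b' c' d' (by subst ha hb hc hd; exact h) := by
  subst ha hb hc hd; rfl

lemma slOf_one : slOf 1 0 0 1 (by ring) = 1 := by
  apply Subtype.ext
  show !![(1 : ℤ), 0; 0, 1] = 1
  exact Matrix.one_fin_two.symm

lemma eq_slOf (γ : SL(2, ℤ)) :
    γ = slOf (γ 0 0) (γ 0 1) (γ 1 0) (γ 1 1) (by
      have := γ.2; rw [Matrix.det_fin_two] at this; exact this) := by
  apply Subtype.ext
  show (γ : Matrix (Fin 2) (Fin 2) ℤ) = !![_, _; _, _]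
  exact Matrix.eta_fin_two _

@[simp] lemma slOf_apply_one_zero (a b c d : ℤ) (h : a * d - b * c = 1) :
    (slOf a b c d h) 1 0 = c := rfl

@[simp] lemma slOf_apply_one_one (a b c d : ℤ) (h : a * d - b * c = 1) :
    (slOf a b c d h) 1 1 = d := rfl

/-- `S T^j = !![0, -1; 1, j]`. -/
lemma S_mul_T_zpow (j : ℤ) :
    ModularGroup.S * ModularGroup.T ^ j = slOf 0 (-1) 1 j (by ring) := by
  rw [T_zpow_eq_slOf, S_eq_slOf, slOf_mul]
  exact slOf_congr _ (by ring) (by ring) (by ring) (by ring)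

/-- `(S T^j)⁻¹ = !![j, 1; -1, 0]`. -/
lemma S_mul_T_zpow_inv (j : ℤ) :
    (ModularGroup.S * ModularGroup.T ^ j)⁻¹ = slOf j 1 (-1) 0 (by ring) := by
  rw [S_mul_T_zpow]
  apply inv_eq_of_mul_eq_one_right
  rw [slOf_mul, ← slOf_one]
  exact slOf_congr _ (by ring) (by ring) (by ring) (by ring)

lemma S_mul_T_zpow_notMem (p : ℕ) (hp : p.Prime) (j : ℤ) :
    ModularGroup.S * ModularGroup.T ^ j ∉ Gamma0 p := by
  have := Fact.mk hp
  rw [S_mul_T_zpow, Gamma0_mem]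
  simp

lemma mul_S_mul_T_zpow_inv_apply (γ : SL(2, ℤ)) (j : ℤ) :
    (γ * (ModularGroup.S * ModularGroup.T ^ j)⁻¹) 1 0 = γ 1 0 * j - γ 1 1 := by
  rw [S_mul_T_zpow_inv]
  conv_lhs => rw [eq_slOf γ, slOf_mul]
  rw [slOf_apply_one_zero]
  ring

/-- Coset decomposition `SL(2, ℤ) = Γ₀(p) ⊔ ⨆ j < p, Γ₀(p) S T^j`. -/
lemma exists_coset_rep (p : ℕ) (hp : p.Prime) (γ : SL(2, ℤ)) (hγ : γ ∉ Gamma0 p) :
    ∃ j : ℕ, j < p ∧ γ * (ModularGroup.S * ModularGroup.T ^ (j : ℤ))⁻¹ ∈ Gamma0 p := by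
  have := Fact.mk hp
  rw [Gamma0_mem] at hγ
  set c : ZMod p := ((γ 1 0 : ℤ) : ZMod p) with hc
  set d : ZMod p := ((γ 1 1 : ℤ) : ZMod p) with hd
  refine ⟨(d * c⁻¹).val, ZMod.val_lt _, ?_⟩
  rw [Gamma0_mem, mul_S_mul_T_zpow_inv_apply]
  push_cast
  rw [ZMod.natCast_zmod_val, ← hc, ← hd, mul_comm d, ← mul_assoc, mul_inv_cancel₀ hγ, one_mul,
    sub_self]

/-- The representatives `S T^j`, `0 ≤ j < p`, are pairwise inequivalent modulo `Γ₀(p)`. -/
lemma S_mul_T_zpow_inj (p : ℕ) (j j' : ℕ) (hj : j < p) (hj' : j' < p)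
    (h : (ModularGroup.S * ModularGroup.T ^ (j : ℤ)) *
      (ModularGroup.S * ModularGroup.T ^ (j' : ℤ))⁻¹ ∈ Gamma0 p) : j = j' := by
  rw [Gamma0_mem, mul_S_mul_T_zpow_inv_apply, S_mul_T_zpow] at h
  have h2 : ((j' : ℤ) - j : ZMod p) = 0 := by
    simpa using h
  have h3 : ((j' : ℕ) : ZMod p) = ((j : ℕ) : ZMod p) := by
    have := sub_eq_zero.mp h2
    exact_mod_cast this
  have := (ZMod.natCast_eq_natCast_iff' j' j p).mp h3
  rw [Nat.mod_eq_of_lt hj, Nat.mod_eq_of_lt hj'] at this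
  exact this.symm

end Fermat.Agent.H34
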