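import Mathlib
import Fermat.Agent.H6.S16UB.Interfaces
import Fermat.Agent.H1.S16L2.Interfaces
import Fermat.Prelude.Thm_CongruenceSubgroup_one_mem_strictPeriods_Gamma0

/-!
# Algebra of expansions `F z = ∑ b n e(n z / h)` (helper34, P-S16 UB-5)

`HasExpPS h F f` says that `F` has the expansion with coefficients those of the power series `f`
in the parameter `e(z / h)`.  It is stable under sums, products, powers; an expansion in `e(z)`
gives an expansion in `e(z / p)` of the expanded series.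
-/

namespace Fermat.Agent.H34

open UpperHalfPlane PowerSeries CongruenceSubgroup
open Fermat.Agent.H6.S16UB
open scoped MatrixGroups ModularForm Real

/-- `F` has expansion `f` in the parameter `e(z / h)`. -/
def HasExpPS (h : ℕ) (F : ℍ → ℂ) (f : PowerSeries ℂ) : Prop :=
  HasExp h F (fun n => coeff n f)

lemma hasExpPS_iff {h : ℕ} {F : ℍ → ℂ} {f : PowerSeries ℂ} :
    HasExpPS h F f ↔
      ∀ z : ℍ, HasSum (fun n : ℕ => coeff n f * Function.Periodic.qParam (h : ℝ) (z : ℂ) ^ n)
        (F z) := Iff.rfl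

lemma HasExpPS.congr {h : ℕ} {F G : ℍ → ℂ} {f : PowerSeries ℂ} (hF : HasExpPS h F f)
    (hFG : ∀ z, F z = G z) : HasExpPS h G f := fun z => hFG z ▸ hF z

lemma HasExpPS.add {h : ℕ} {F G : ℍ → ℂ} {f g : PowerSeries ℂ} (hF : HasExpPS h F f)
    (hG : HasExpPS h G g) : HasExpPS h (fun z => F z + G z) (f + g) := by
  intro z
  have := (hF z).add (hG z)
  simpa [add_mul] using this

lemma HasExpPS.neg {h : ℕ} {F : ℍ → ℂ} {f : PowerSeries ℂ} (hF : HasExpPS h F f) :
    HasExpPS h (fun z => - F z) (-f) := by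
  intro z
  have := (hF z).neg
  simpa [neg_mul] using this

lemma HasExpPS.sub {h : ℕ} {F G : ℍ → ℂ} {f g : PowerSeries ℂ} (hF : HasExpPS h F f)
    (hG : HasExpPS h G g) : HasExpPS h (fun z => F z - G z) (f - g) := by
  intro z
  have := (hF z).sub (hG z)
  simpa [sub_mul] using this

lemma HasExpPS.const_mul {h : ℕ} {F : ℍ → ℂ} {f : PowerSeries ℂ} (hF : HasExpPS h F f)
    (c : ℂ) : HasExpPS h (fun z => c * F z) (C c * f) := by
  intro z
  have := (hF z).mul_left c
  simpa [mul_assoc] using this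

lemma HasExpPS.mul {h : ℕ} {F G : ℍ → ℂ} {f g : PowerSeries ℂ} (hF : HasExpPS h F f)
    (hG : HasExpPS h G g) : HasExpPS h (fun z => F z * G z) (f * g) := by
  intro z
  set x : ℂ := Function.Periodic.qParam (h : ℝ) (z : ℂ)
  have h1 := hF z
  have h2 := hG z
  have n1 : Summable fun n : ℕ => ‖coeff n f * x ^ n‖ := h1.summable.norm
  have n2 : Summable fun n : ℕ => ‖coeff n g * x ^ n‖ := h2.summable.norm
  have hs := summable_norm_sum_mul_antidiagonal_of_summable_norm n1 n2
  have ht := tsum_mul_tsum_eq_tsum_sum_antidiagonal_of_summable_norm n1 n2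
  rw [h1.tsum_eq, h2.tsum_eq] at ht
  have hsum : HasSum (fun n : ℕ => ∑ kl ∈ Finset.HasAntidiagonal.antidiagonal n,
      (coeff kl.1 f * x ^ kl.1) * (coeff kl.2 g * x ^ kl.2)) (F z * G z) := by
    rw [ht]
    exact hs.of_norm.hasSum
  have hfun : (fun n : ℕ => coeff n (f * g) * x ^ n) = fun n : ℕ =>
      ∑ kl ∈ Finset.HasAntidiagonal.antidiagonal n,
        (coeff kl.1 f * x ^ kl.1) * (coeff kl.2 g * x ^ kl.2) := by
    funext n
    rw [coeff_mul, Finset.sum_mul]
    refine Finset.sum_congr rfl fun kl hkl => ?_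
    rw [← Finset.HasAntidiagonal.mem_antidiagonal.mp hkl, pow_add]
    ring
  show HasSum (fun n : ℕ => coeff n (f * g) * x ^ n) (F z * G z)
  rw [hfun]
  exact hsum

lemma hasExpPS_const (h : ℕ) (c : ℂ) : HasExpPS h (fun _ => c) (C c) := by
  intro z
  have : (fun n : ℕ => coeff n (C c : PowerSeries ℂ) *
      Function.Periodic.qParam (h : ℝ) (z : ℂ) ^ n) = fun n : ℕ => if n = 0 then c else 0 := by
    funext n
    rw [coeff_C]
    split_ifs with hn
    · simp [hn]
    · simp
  show HasSum (fun n : ℕ => coeff n (C c : PowerSeries ℂ) *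
      Function.Periodic.qParam (h : ℝ) (z : ℂ) ^ n) c
  rw [this]
  exact hasSum_ite_eq 0 c

lemma HasExpPS.pow {h : ℕ} {F : ℍ → ℂ} {f : PowerSeries ℂ} (hF : HasExpPS h F f) (r : ℕ) :
    HasExpPS h (fun z => F z ^ r) (f ^ r) := by
  induction r with
  | zero =>
    have := hasExpPS_const h 1
    simpa using this
  | succ r ih =>
    have := ih.mul hF
    simpa [pow_succ] using this

/-- Passing from the parameter `e(z)` to the parameter `e(z / p)`. -/
lemma HasExpPS.expand {F : ℍ → ℂ} {f : PowerSeries ℂ} (hF : HasExpPS 1 F f) (p : ℕ)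
    (hp : p ≠ 0) : HasExpPS p F (PowerSeries.expand p hp f) := by
  intro z
  have h1 := hF z
  set x : ℂ := Function.Periodic.qParam (p : ℝ) (z : ℂ)
  have hx : Function.Periodic.qParam ((1 : ℕ) : ℝ) (z : ℂ) = x ^ p := by
    simp only [x, Function.Periodic.qParam, ← Complex.exp_nat_mul]
    congr 1
    have : (p : ℂ) ≠ 0 := by exact_mod_cast hp
    push_cast
    field_simp
  show HasSum (fun n : ℕ => coeff n (PowerSeries.expand p hp f) * x ^ n) (F z)
  have hinj : Function.Injective (fun n : ℕ => p * n) :=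
    fun a b hab => Nat.eq_of_mul_eq_mul_left (Nat.pos_of_ne_zero hp) hab
  rw [← hinj.hasSum_iff]
  · have : ((fun n : ℕ => coeff n (PowerSeries.expand p hp f) * x ^ n) ∘ fun n : ℕ => p * n) =
        fun n : ℕ => coeff n f * Function.Periodic.qParam ((1 : ℕ) : ℝ) (z : ℂ) ^ n := by
      funext n
      simp only [Function.comp_apply, coeff_expand_mul, hx, pow_mul]
    rw [this]
    exact h1
  · intro n hn
    have : ¬ p ∣ n := fun ⟨m, hm⟩ => hn ⟨m, hm.symm⟩
    rw [coeff_expand_of_not_dvd p hp f this, zero_mul]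

lemma hasExpPS_Gamma0 (N : ℕ) [NeZero N] {k : ℤ} (f : ModularForm (Gamma0 N) k) :
    HasExpPS 1 (⇑f) (qExpansion 1 (⇑f)) := by
  intro z
  have := ModularForm.hasSum_qExpansion f one_pos
    (CongruenceSubgroup.one_mem_strictPeriods_Gamma0 N) z
  simpa using this

lemma hasExpPS_levelOne {k : ℤ} (f : ModularForm 𝒮ℒ k) :
    HasExpPS 1 (⇑f) (qExpansion 1 (⇑f)) := by
  intro z
  have := ModularForm.hasSum_qExpansion f one_pos one_mem_strictPeriods_SL z
  simpa using this

/-- The root of unity `e(1 / p)`. -/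
noncomputable def zetaC (p : ℕ) : ℂ := Complex.exp (2 * π * Complex.I / p)

/-- `ConjStatement` in the language of expansions: `-p (H ∣ S T^j)` has the expansion
`(U_p H)(ζ^j X)` in `X = e(z / p)`. -/
lemma hasExpPS_conj (hC : Fermat.Agent.H1.S16L2.ConjStatement) (p : ℕ) (hp : p.Prime)
    (H : ModularForm (Gamma0 p) 2) (j : ℕ) :
    HasExpPS p (fun z => -(p : ℂ) * (⇑H ∣[(2 : ℤ)] (ModularGroup.S * ModularGroup.T ^ (j : ℤ))) z)
      (rescale (zetaC p ^ j) (upSeries p (qExpansion 1 (⇑H)))) := by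
  intro z
  have h1 := (hC p hp H (j : ℤ) z).mul_left (-(p : ℂ))
  have hp0 : (p : ℂ) ≠ 0 := by exact_mod_cast hp.ne_zero
  have hfun : (fun n : ℕ => coeff n (rescale (zetaC p ^ j) (upSeries p (qExpansion 1 (⇑H)))) *
      Function.Periodic.qParam (p : ℝ) (z : ℂ) ^ n) = fun n : ℕ =>
      -(p : ℂ) * (-(p : ℂ)⁻¹ * coeff (p * n) (qExpansion 1 (⇑H)) *
        Complex.exp (2 * π * Complex.I * n * ((z : ℂ) + (j : ℤ)) / p)) := by
    funext n
    rw [coeff_rescale, upSeries, coeff_mk]
    have hexp : Complex.exp (2 * π * Complex.I * n * ((z : ℂ) + (j : ℤ)) / p) =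
        (zetaC p ^ j) ^ n * Function.Periodic.qParam (p : ℝ) (z : ℂ) ^ n := by
      rw [zetaC, Function.Periodic.qParam, ← Complex.exp_nat_mul, ← Complex.exp_nat_mul,
        ← Complex.exp_nat_mul, ← Complex.exp_add]
      congr 1
      push_cast
      field_simp
      ring
    rw [hexp]
    field_simp
  show HasSum (fun n : ℕ => coeff n (rescale (zetaC p ^ j) (upSeries p (qExpansion 1 (⇑H)))) *
      Function.Periodic.qParam (p : ℝ) (z : ℂ) ^ n) _
  rw [hfun]
  exact h1

end Fermat.Agent.H34
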