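import Mathlib
import Fermat.Agent.H6.S16UB.Interfaces

/-!
# The ring of algebraic integers in `ℂ`, a residue field at `ℓ`, and reduction of series
(helper34, P-S16 UB-5)
-/

namespace Fermat.Agent.H34

open PowerSeries
open Fermat.Agent.H6.S16UB

/-- The ring of algebraic integers in `ℂ`, as a subring. -/
noncomputable def intC : Subring ℂ := (integralClosure ℤ ℂ).toSubring

lemma mem_intC {x : ℂ} : x ∈ intC ↔ IsIntegral ℤ x := Iff.rfl

lemma intCast_mem_intC (n : ℤ) : (n : ℂ) ∈ intC := intCast_mem intC n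

lemma exp_mem_intC (p : ℕ) (hp : p ≠ 0) :
    Complex.exp (2 * Real.pi * Complex.I / p) ∈ intC := by
  rw [mem_intC]
  have h : Complex.exp (2 * Real.pi * Complex.I / p) ^ p = 1 :=
    (Complex.isPrimitiveRoot_exp p hp).pow_eq_one
  exact IsIntegral.of_pow (Nat.pos_of_ne_zero hp) (h ▸ isIntegral_one)

instance isIntegral_intC : Algebra.IsIntegral ℤ intC :=
  ⟨fun x => (isIntegral_algebraMap_iff (A := intC) (B := ℂ) Subtype.val_injective).mp x.2⟩

/-- A residue field of the ring of algebraic integers of characteristic `ℓ`. -/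
lemma exists_residue_field (ℓ : ℕ) (hℓ : ℓ.Prime) :
    ∃ (κ : Type) (_ : Field κ) (φ : intC →+* κ), ∀ n : ℤ, φ (n : intC) = 0 ↔ (ℓ : ℤ) ∣ n := by
  have hirr : Irreducible (ℓ : ℤ) := (Nat.prime_iff_prime_int.mp hℓ).irreducible
  have hmax : (Ideal.span {(ℓ : ℤ)}).IsMaximal :=
    PrincipalIdealRing.isMaximal_of_irreducible hirr
  obtain ⟨Q, hQ, hQc⟩ := Ideal.exists_ideal_over_maximal_of_isIntegral (S := intC)
    (Ideal.span {(ℓ : ℤ)}) (by
      intro x hx
      rw [RingHom.mem_ker] at hx
      have : x = 0 := by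
        have h2 : ((algebraMap ℤ intC x : intC) : ℂ) = 0 := by rw [hx]; rfl
        have h3 : ((algebraMap ℤ intC x : intC) : ℂ) = (x : ℂ) := by
          rw [eq_intCast (algebraMap ℤ intC) x]; rfl
        rw [h3] at h2
        exact_mod_cast h2
      rw [this]
      exact Ideal.zero_mem _)
  have := hQ
  refine ⟨intC ⧸ Q, Ideal.Quotient.field Q, Ideal.Quotient.mk Q, fun n => ?_⟩
  rw [Ideal.Quotient.eq_zero_iff_mem, ← Ideal.mem_span_singleton, ← hQc, Ideal.mem_comap,
    eq_intCast (algebraMap ℤ intC) n]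

section series

variable {R S : Type*} [CommRing R] [CommRing S]

lemma map_rescale' (f : R →+* S) (a : R) (g : PowerSeries R) :
    map f (rescale a g) = rescale (f a) (map f g) := by
  ext n
  simp [coeff_rescale]

lemma map_upSeries (f : R →+* S) (p : ℕ) (g : PowerSeries R) :
    map f (upSeries p g) = upSeries p (map f g) := by
  ext n
  simp [upSeries]

lemma upSeries_C (p : ℕ) (hp : p ≠ 0) (c : R) : upSeries p (C c : PowerSeries R) = C c := by
  ext n
  simp [upSeries, coeff_C, hp]

lemma rescale_C' (x c : R) : rescale x (C c : PowerSeries R) = C c := by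
  ext n
  rw [coeff_rescale, coeff_C]
  split_ifs with h
  · simp [h]
  · simp

lemma constantCoeff_map' (f : R →+* S) (a : PowerSeries R) :
    constantCoeff (map f a) = f (constantCoeff a) := by
  rw [← coeff_zero_eq_constantCoeff_apply, coeff_map, coeff_zero_eq_constantCoeff_apply]

/-- The expansion in `e(z / p)` of `(-p H) ^ r - a₀ ^ r E`, from the expansions `a` of `H` and `e`
of `E` in `e(z)`. -/
noncomputable def bIn (p : ℕ) (hp : p ≠ 0) (r : ℕ) (a e : PowerSeries R) : PowerSeries R :=
  expand p hp ((C (-(p : R)) * a) ^ r - C (constantCoeff a ^ r) * e)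

/-- The expansion in `e(z / p)` of `(-p H ∣ S T^j) ^ r - a₀ ^ r E`, with `ζ = e(j / p)`. -/
noncomputable def bOut (p : ℕ) (hp : p ≠ 0) (r : ℕ) (ζ : R) (a e : PowerSeries R) :
    PowerSeries R :=
  (rescale ζ (upSeries p a)) ^ r - C (constantCoeff a ^ r) * expand p hp e

lemma map_bIn (f : R →+* S) (p : ℕ) (hp : p ≠ 0) (r : ℕ) (a e : PowerSeries R) :
    map f (bIn p hp r a e) = bIn p hp r (map f a) (map f e) := by
  simp [bIn, map_expand, constantCoeff_map']

lemma map_bOut (f : R →+* S) (p : ℕ) (hp : p ≠ 0) (r : ℕ) (ζ : R) (a e : PowerSeries R) :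
    map f (bOut p hp r ζ a e) = bOut p hp r (f ζ) (map f a) (map f e) := by
  simp [bOut, map_expand, map_rescale', map_upSeries, constantCoeff_map']

end series

section field

variable {κ : Type*} [Field κ]

lemma order_one_sub {e : PowerSeries κ} (he0 : coeff 0 e = 1) (he1 : coeff 1 e ≠ 0) :
    (1 - e).order = 1 := by
  have : (1 - e).order = ((1 : ℕ) : ℕ∞) := by
    rw [order_eq_nat]
    refine ⟨?_, fun i hi => ?_⟩
    · simpa [coeff_one] using he1
    · have hi0 : i = 0 := by omega
      subst hi0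
      have he0' : constantCoeff e = 1 := by simpa using he0
      simp [he0']
  simpa using this

lemma order_bOut (p : ℕ) (hp : p ≠ 0) (r : ℕ) (ζ c : κ) (hc : c ≠ 0) {e : PowerSeries κ}
    (he0 : coeff 0 e = 1) (he1 : coeff 1 e ≠ 0) :
    (bOut p hp r ζ (C c) e).order = p := by
  have h1 : bOut p hp r ζ (C c) e = C (c ^ r) * expand p hp (1 - e) := by
    simp only [bOut, upSeries_C p hp, rescale_C', map_sub, map_one, ← map_pow]
    simp only [map_pow, constantCoeff_C]
    ring
  rw [h1, order_mul, order_expand, order_one_sub he0 he1]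
  have h2 : (C (c ^ r) : PowerSeries κ).order = 0 := by
    have : (C (c ^ r) : PowerSeries κ).order = ((0 : ℕ) : ℕ∞) := by
      rw [order_eq_nat]
      exact ⟨by simpa using pow_ne_zero r hc, fun i hi => absurd hi (Nat.not_lt_zero i)⟩
    simpa using this
  rw [h2]
  simp

lemma bIn_ne_zero (p : ℕ) (hp : p ≠ 0) (r : ℕ) (c : κ) (hc : c ≠ 0) {e : PowerSeries κ}
    (he1 : coeff 1 e ≠ 0) : bIn p hp r (C c) e ≠ 0 := by
  intro h
  have h1 := congrArg (coeff (p * 1)) h
  rw [bIn, coeff_expand_mul] at h1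
  simp only [← map_mul, ← map_pow, constantCoeff_C, map_sub, coeff_C, one_ne_zero, if_false,
    map_zero, zero_sub, neg_eq_zero, coeff_C_mul, mul_eq_zero] at h1
  rcases h1 with h1 | h1
  · exact pow_ne_zero r hc h1
  · exact he1 h1

end field

end Fermat.Agent.H34
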