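import Mathlib
import Fermat.Agent.H34.S16Exp
import Fermat.Agent.H34.S16Cosets
import Fermat.Agent.H34.S16Red
import Fermat.Agent.H57.Gamma0Index

/-!
# S16 upper bound, `ℓ ≥ 5` (helper34, P-S16 UB-5)

`NoUnitGeFiveStatement` from `ConjStatement` and `NormMachineStatement`: the norm trick with
`Y = (-p H) ^ r - a₀ ^ r E_{2r}`, `r = 2` (`ℓ ≥ 7`) or `r = 3` (`ℓ = 5`).
-/

namespace Fermat.Agent.H34

open UpperHalfPlane PowerSeries CongruenceSubgroup Matrix.SpecialLinearGroup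
open Fermat.Agent.H6.S16UB
open scoped MatrixGroups ModularForm Real

/-- Restriction of a level-one form to a subgroup of `SL(2, ℤ)`. -/
def restrictLevelOne (Γ : Subgroup SL(2, ℤ)) {k : ℤ} (f : ModularForm 𝒮ℒ k) :
    ModularForm Γ k where
  toFun := f
  slash_action_eq' A hA := by
    obtain ⟨g, -, rfl⟩ := hA
    exact f.slash_action_eq' _ ⟨g, rfl⟩
  holo' := f.holo'
  bdd_at_cusps' hc := f.bdd_at_cusps' (hc.mono (by
    rintro _ ⟨g, -, rfl⟩
    exact ⟨g, rfl⟩))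

@[simp] lemma restrictLevelOne_apply (Γ : Subgroup SL(2, ℤ)) {k : ℤ} (f : ModularForm 𝒮ℒ k)
    (z : ℍ) : restrictLevelOne Γ f z = f z := rfl

/-- The slash of `(c H) ^ r - d E` in weight `2 r`. -/
lemma slash_pow_sub (r k : ℕ) (hk : k = 2 * r) (Y H E : ℍ → ℂ) (c d : ℂ)
    (hY : ∀ z, Y z = (c * H z) ^ r - d * E z) (γ : SL(2, ℤ)) (z : ℍ) :
    (Y ∣[(k : ℤ)] γ) z = (c * (H ∣[(2 : ℤ)] γ) z) ^ r - d * (E ∣[(k : ℤ)] γ) z := by
  simp only [ModularForm.SL_slash_apply, hY]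
  have hD : denom γ z ≠ 0 := denom_ne_zero γ z
  have : (denom γ z) ^ (-(k : ℤ)) = ((denom γ z) ^ (-(2 : ℤ))) ^ r := by
    rw [← zpow_natCast, ← zpow_mul]
    congr 1
    subst hk
    push_cast
    ring
  rw [this]
  ring

lemma slash_Gamma0 {p : ℕ} {k : ℤ} (H : ModularForm (Gamma0 p) k) (g : SL(2, ℤ))
    (hg : g ∈ Gamma0 p) : (⇑H) ∣[k] g = ⇑H :=
  SlashInvariantForm.slash_action_eqn H (mapGL ℝ g) (Subgroup.mem_map_of_mem _ hg)

lemma slash_levelOne {k : ℤ} (E : ModularForm 𝒮ℒ k) (g : SL(2, ℤ)) : (⇑E) ∣[k] g = ⇑E :=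
  SlashInvariantForm.slash_action_eqn E (mapGL ℝ g) ⟨g, rfl⟩

/-- The form `Y = (-p H) ^ r - a₀ ^ r E` of weight `2 r` on `Γ₀(p)`. -/
noncomputable def formY {p : ℕ} (r : ℕ) (H : ModularForm (Gamma0 p) 2)
    (E : ModularForm 𝒮ℒ ((2 * r : ℕ) : ℤ)) (a0 : ℂ) : ModularForm (Gamma0 p) ((2 * r : ℕ) : ℤ) :=
  ((-(p : ℂ)) ^ r) • ModularForm.mcast (by push_cast; ring) (H.pow r)
    - (a0 ^ r) • restrictLevelOne (Gamma0 p) E

lemma formY_apply {p : ℕ} (r : ℕ) (H : ModularForm (Gamma0 p) 2)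
    (E : ModularForm 𝒮ℒ ((2 * r : ℕ) : ℤ)) (a0 : ℂ) (z : ℍ) :
    formY r H E a0 z = (-(p : ℂ) * H z) ^ r - a0 ^ r * E z := by
  simp only [formY, sub_apply, smul_apply, ModularForm.mcast_apply,
    ModularForm.coe_pow, Pi.pow_apply, restrictLevelOne_apply, smul_eq_mul, mul_pow]

/-- The expansions of the translates of `Y`. -/
lemma hasExpPS_formY_in {p : ℕ} (hp : p.Prime) (r : ℕ) (H : ModularForm (Gamma0 p) 2)
    (E : ModularForm 𝒮ℒ ((2 * r : ℕ) : ℤ)) (γ : SL(2, ℤ)) (hγ : γ ∈ Gamma0 p) :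
    HasExpPS p (⇑(formY r H E (constantCoeff (qExpansion 1 (⇑H)))) ∣[((2 * r : ℕ) : ℤ)] γ)
      (bIn p hp.ne_zero r (qExpansion 1 (⇑H)) (qExpansion 1 (⇑E))) := by
  have : NeZero p := ⟨hp.ne_zero⟩
  have h1 : HasExpPS 1 (fun z => (-(p : ℂ) * H z) ^ r -
      constantCoeff (qExpansion 1 (⇑H)) ^ r * E z)
      ((C (-(p : ℂ)) * qExpansion 1 (⇑H)) ^ r -
        C (constantCoeff (qExpansion 1 (⇑H)) ^ r) * qExpansion 1 (⇑E)) :=
    (((hasExpPS_Gamma0 p H).const_mul _).pow r).sub ((hasExpPS_levelOne E).const_mul _)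
  refine (h1.expand p hp.ne_zero).congr fun z => ?_
  rw [slash_pow_sub r (2 * r) rfl _ (⇑H) (⇑E) (-(p : ℂ)) _ (formY_apply r H E _) γ z,
    slash_Gamma0 H γ hγ, slash_levelOne E γ]

lemma hasExpPS_formY_out (hC : Fermat.Agent.H1.S16L2.ConjStatement) {p : ℕ} (hp : p.Prime)
    (r : ℕ) (H : ModularForm (Gamma0 p) 2)
    (E : ModularForm 𝒮ℒ ((2 * r : ℕ) : ℤ)) (γ : SL(2, ℤ)) (j : ℕ)
    (hγ : γ * (ModularGroup.S * ModularGroup.T ^ (j : ℤ))⁻¹ ∈ Gamma0 p) :
    HasExpPS p (⇑(formY r H E (constantCoeff (qExpansion 1 (⇑H)))) ∣[((2 * r : ℕ) : ℤ)] γ)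
      (bOut p hp.ne_zero r (zetaC p ^ j) (qExpansion 1 (⇑H)) (qExpansion 1 (⇑E))) := by
  have h1 : HasExpPS p (fun z => (-(p : ℂ) *
        (⇑H ∣[(2 : ℤ)] (ModularGroup.S * ModularGroup.T ^ (j : ℤ))) z) ^ r -
      constantCoeff (qExpansion 1 (⇑H)) ^ r * E z)
      ((rescale (zetaC p ^ j) (upSeries p (qExpansion 1 (⇑H)))) ^ r -
        C (constantCoeff (qExpansion 1 (⇑H)) ^ r) *
          PowerSeries.expand p hp.ne_zero (qExpansion 1 (⇑E))) :=
    ((hasExpPS_conj hC p hp H j).pow r).sub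
      (((hasExpPS_levelOne E).expand p hp.ne_zero).const_mul _)
  refine h1.congr fun z => ?_
  rw [slash_pow_sub r (2 * r) rfl _ (⇑H) (⇑E) (-(p : ℂ)) _ (formY_apply r H E _) γ z,
    slash_levelOne E γ]
  have hH : (⇑H) ∣[(2 : ℤ)] γ = (⇑H) ∣[(2 : ℤ)] (ModularGroup.S * ModularGroup.T ^ (j : ℤ)) := by
    have hγ' : γ = (γ * (ModularGroup.S * ModularGroup.T ^ (j : ℤ))⁻¹) *
        (ModularGroup.S * ModularGroup.T ^ (j : ℤ)) := by group
    conv_lhs => rw [hγ']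
    rw [SlashAction.slash_mul, slash_Gamma0 H _ hγ]
  rw [hH]

lemma dedekindPsi_prime' {p : ℕ} (hp : p.Prime) : ModularCurve.dedekindPsi p = p + 1 := by
  unfold ModularCurve.dedekindPsi
  rw [hp.divisors, Finset.filter_true_of_mem, Finset.sum_pair hp.one_lt.ne]
  · rw [Nat.div_one, Nat.div_self hp.pos]
  · intro d hd
    rcases Finset.mem_insert.mp hd with rfl | hd
    · exact squarefree_one
    · rw [Finset.mem_singleton.mp hd]
      exact hp.squarefree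

/-- The generic norm-trick argument: `E` a level-one form of weight `2 r ≤ 6` with integral
expansion `e = 1 + e₁ q + ⋯`, `ℓ ∤ e₁`; then `H ≡ a₀ mod ℓ` forces `ℓ ∣ a₀`. -/
theorem noUnit_of_eis (hC : Fermat.Agent.H1.S16L2.ConjStatement) (hN : NormMachineStatement)
    (ℓ : ℕ) (hℓ : ℓ.Prime) (p : ℕ) (hp : p.Prime) (r : ℕ) (hr : r ≤ 3)
    (E : ModularForm 𝒮ℒ ((2 * r : ℕ) : ℤ)) (e : PowerSeries ℤ)
    (hE : qExpansion 1 (⇑E) = e.map (Int.castRingHom ℂ))
    (he0 : coeff 0 e = 1) (he1 : ¬ (ℓ : ℤ) ∣ coeff 1 e)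
    (H : ModularForm (Gamma0 p) 2) (a : ℕ → ℤ)
    (ha : ∀ n, coeff n (qExpansion 1 (⇑H)) = (a n : ℂ))
    (hdiv : ∀ n, 1 ≤ n → (ℓ : ℤ) ∣ a n) : (ℓ : ℤ) ∣ a 0 := by
  classical
  by_contra h0
  have hp0 : p ≠ 0 := hp.ne_zero
  have : NeZero p := ⟨hp0⟩
  obtain ⟨κ, _, φ, hφ⟩ := exists_residue_field ℓ hℓ
  -- the series over `ℤ`, `A = intC`, `ℂ`, `κ`
  set aZ : PowerSeries ℤ := PowerSeries.mk a with haZ
  set aA : PowerSeries intC := aZ.map (Int.castRingHom intC) with haA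
  set eA : PowerSeries intC := e.map (Int.castRingHom intC) with heA
  have haC : aA.map intC.subtype = qExpansion 1 (⇑H) := by
    ext n
    rw [ha n]
    simp [aA, aZ]
  have heC : eA.map intC.subtype = qExpansion 1 (⇑E) := by
    rw [hE]
    ext n
    simp [eA]
  set ζA : intC := ⟨zetaC p, exp_mem_intC p hp0⟩ with hζA
  -- the expansions
  let b : SL(2, ℤ) → PowerSeries intC := fun γ =>
    if h : γ ∈ Gamma0 p then bIn p hp0 r aA eA
    else bOut p hp0 r (ζA ^ (Classical.choose (exists_coset_rep p hp γ h))) aA eA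
  have hb_in : ∀ γ, γ ∈ Gamma0 p → b γ = bIn p hp0 r aA eA := fun γ h => dif_pos h
  have hb_out : ∀ γ, γ ∉ Gamma0 p → ∃ j : ℕ,
      γ * (ModularGroup.S * ModularGroup.T ^ (j : ℤ))⁻¹ ∈ Gamma0 p ∧
        b γ = bOut p hp0 r (ζA ^ j) aA eA := fun γ h =>
    ⟨_, (Classical.choose_spec (exists_coset_rep p hp γ h)).2, dif_neg h⟩
  set Y := formY r H E (constantCoeff (qExpansion 1 (⇑H))) with hY
  have hexp : ∀ γ : SL(2, ℤ), HasExp p (⇑Y ∣[((2 * r : ℕ) : ℤ)] γ)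
      (fun n => ((PowerSeries.coeff n (b γ) : intC) : ℂ)) := by
    intro γ
    have key : ∀ f : PowerSeries intC, (fun n => ((PowerSeries.coeff n f : intC) : ℂ)) =
        fun n => coeff n (f.map intC.subtype) := fun f => by
      funext n
      simp
    rw [key]
    by_cases h : γ ∈ Gamma0 p
    · rw [hb_in γ h, map_bIn, haC, heC]
      exact hasExpPS_formY_in hp r H E γ h
    · obtain ⟨j, hj, hbj⟩ := hb_out γ h
      rw [hbj, map_bOut, haC, heC]
      have : intC.subtype (ζA ^ j) = zetaC p ^ j := by simp [ζA]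
      rw [this]
      exact hasExpPS_formY_out hC hp r H E γ j hj
  -- reductions
  have hc : φ ((a 0 : ℤ) : intC) ≠ 0 := fun h => h0 ((hφ _).mp h)
  have haκ : aA.map φ = C (φ ((a 0 : ℤ) : intC)) := by
    ext n
    rw [coeff_map, haA, coeff_map, haZ, coeff_mk, coeff_C]
    split_ifs with hn
    · subst hn
      simp
    · simpa using (hφ (a n)).mpr (hdiv n (Nat.one_le_iff_ne_zero.mpr hn))
  have he0κ : coeff 0 (eA.map φ) = 1 := by
    rw [coeff_map, heA, coeff_map, he0]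
    simp
  have he1κ : coeff 1 (eA.map φ) ≠ 0 := by
    rw [coeff_map, heA, coeff_map]
    intro h
    exact he1 ((hφ _).mp (by simpa using h))
  have hne : ∀ γ, (b γ).map φ ≠ 0 := by
    intro γ
    by_cases h : γ ∈ Gamma0 p
    · rw [hb_in γ h, map_bIn, haκ]
      exact bIn_ne_zero p hp0 r _ hc he1κ
    · obtain ⟨j, hj, hbj⟩ := hb_out γ h
      rw [hbj, map_bOut, haκ]
      intro h0'
      have := order_bOut p hp0 r (φ (ζA ^ j)) _ hc he0κ he1κ
      rw [h0', order_zero] at this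
      exact ENat.top_ne_natCast p this
  have hord : ∀ j : ℕ, ((b (ModularGroup.S * ModularGroup.T ^ (j : ℤ))).map φ).order = p := by
    intro j
    obtain ⟨j', hj', hbj⟩ := hb_out _ (S_mul_T_zpow_notMem p hp j)
    rw [hbj, map_bOut, haκ]
    exact order_bOut p hp0 r _ _ hc he0κ he1κ
  -- the set of representatives
  set S : Finset SL(2, ℤ) :=
    (Finset.range p).image (fun j : ℕ => ModularGroup.S * ModularGroup.T ^ (j : ℤ)) with hS
  have hSinj : ∀ γ ∈ S, ∀ γ' ∈ S, γ * γ'⁻¹ ∈ Gamma0 p → γ = γ' := by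
    intro γ hγ γ' hγ' h
    obtain ⟨j, hj, rfl⟩ := Finset.mem_image.mp hγ
    obtain ⟨j', hj', rfl⟩ := Finset.mem_image.mp hγ'
    rw [S_mul_T_zpow_inj p j j' (Finset.mem_range.mp hj) (Finset.mem_range.mp hj') h]
  have hsum : ∑ γ ∈ S, ((b γ).map φ).order = ((p * p : ℕ) : ℕ∞) := by
    rw [hS, Finset.sum_image]
    · rw [Finset.sum_congr rfl (fun j _ => hord j), Finset.sum_const, Finset.card_range]
      simp
    · intro j hj j' hj' hjj'
      refine S_mul_T_zpow_inj p j j' (by simpa using hj) (by simpa using hj') ?_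
      have hjj'' : ModularGroup.S * ModularGroup.T ^ (j : ℤ) =
          ModularGroup.S * ModularGroup.T ^ (j' : ℤ) := hjj'
      rw [hjj'', mul_inv_cancel]
      exact one_mem _
  have hfin := hN (Gamma0 p) (2 * r) Y p hp.pos intC κ φ b hexp hne S hSinj
  rw [hsum, Fermat.Agent.H57.index_Gamma0, dedekindPsi_prime' hp] at hfin
  have h2 : 12 * (p * p) ≤ p * (2 * r * (p + 1)) := by exact_mod_cast hfin
  have hp2 := hp.two_le
  nlinarith

/-- The integral expansion `1 + c ∑ σ_m(n) qⁿ`. -/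
noncomputable def eisZ (c : ℤ) (m : ℕ) : PowerSeries ℤ :=
  PowerSeries.mk fun n => if n = 0 then 1 else c * (ArithmeticFunction.sigma m n : ℤ)

lemma coeff_zero_eisZ (c : ℤ) (m : ℕ) : coeff 0 (eisZ c m) = 1 := by
  simp [eisZ]

lemma coeff_one_eisZ (c : ℤ) (m : ℕ) : coeff 1 (eisZ c m) = c := by
  simp [eisZ]

lemma qExpansion_E_four :
    qExpansion 1 (⇑(ModularForm.E (k := 2 * 2) (by norm_num))) =
      (eisZ 240 3).map (Int.castRingHom ℂ) := by
  ext n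
  rw [EisensteinSeries.E_qExpansion_coeff (k := 2 * 2) (by norm_num) ⟨2, rfl⟩ n, coeff_map, eisZ,
    coeff_mk]
  split_ifs with hn
  · simp
  · have hb : bernoulli (2 * 2) = -1 / 30 := by
      show bernoulli 4 = -1 / 30
      decide +kernel
    rw [hb]
    push_cast
    norm_num

lemma qExpansion_E_six :
    qExpansion 1 (⇑(ModularForm.E (k := 2 * 3) (by norm_num))) =
      (eisZ (-504) 5).map (Int.castRingHom ℂ) := by
  ext n
  rw [EisensteinSeries.E_qExpansion_coeff (k := 2 * 3) (by norm_num) ⟨3, rfl⟩ n, coeff_map, eisZ,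
    coeff_mk]
  split_ifs with hn
  · simp
  · have hb : bernoulli (2 * 3) = 1 / 42 := by
      show bernoulli 6 = 1 / 42
      decide +kernel
    rw [hb]
    push_cast
    norm_num

/-- **UB-5.** `ℓ ≥ 5` (including `ℓ = p`). -/
theorem noUnitGeFive (hC : Fermat.Agent.H1.S16L2.ConjStatement) (hN : NormMachineStatement) :
    NoUnitGeFiveStatement := by
  intro ℓ hℓ h5 p hp _ H a ha hdiv
  have hdiv' : ∀ n, 1 ≤ n → (ℓ : ℤ) ∣ a n := fun n hn => by
    have := hdiv n hn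
    simpa using this
  by_cases h : ℓ = 5
  · subst h
    refine noUnit_of_eis hC hN 5 hℓ p hp 3 le_rfl _ (eisZ (-504) 5) qExpansion_E_six
      (coeff_zero_eisZ _ _) ?_ H a ha hdiv'
    rw [coeff_one_eisZ]
    norm_num
  · refine noUnit_of_eis hC hN ℓ hℓ p hp 2 (by norm_num) _ (eisZ 240 3) qExpansion_E_four
      (coeff_zero_eisZ _ _) ?_ H a ha hdiv'
    rw [coeff_one_eisZ]
    intro hdvd
    have h240 : ℓ ∣ 240 := by exact_mod_cast hdvd
    have h7 : 7 ≤ ℓ := by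
      rcases Nat.lt_or_ge ℓ 7 with h7 | h7
      · interval_cases ℓ
        · exact absurd rfl h
        · exact absurd hℓ (by norm_num)
      · exact h7
    have hfac : (240 : ℕ) = 2 ^ 4 * 3 * 5 := by norm_num
    rw [hfac] at h240
    rcases (Nat.Prime.dvd_mul hℓ).mp h240 with h1 | h1
    · rcases (Nat.Prime.dvd_mul hℓ).mp h1 with h2 | h2
      · have := (Nat.prime_dvd_prime_iff_eq hℓ Nat.prime_two).mp (hℓ.dvd_of_dvd_pow h2)
        omega
      · have := (Nat.prime_dvd_prime_iff_eq hℓ Nat.prime_three).mp h2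
        omega
    · have := (Nat.prime_dvd_prime_iff_eq hℓ Nat.prime_five).mp h1
      omega

end Fermat.Agent.H34
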