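import Fermat.Agent.H78.ARTDefs2

/-!
# Existence of the tower of least admissible ideals (H78-ART-3)

`nonempty_tower_of` : given the closure facts `admissible_inf`, `admissible_baseIdeal` and
`exists_finset_gen` (as hypotheses), the tower of least admissible ideals exists.
-/

set_option autoImplicit false

noncomputable section

namespace Fermat.Agent.H34

open IsLocalRing Fermat.Agent.H78

/-- In a noetherian ring, the quotient by a power of a maximal ideal is Artinian. -/
theorem isArtinianRing_quot_maximal_pow {R : Type*} [CommRing R] [IsNoetherianRing R]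
    (M : Ideal R) [hM : M.IsMaximal] (n : ℕ) : IsArtinianRing (R ⧸ M ^ n) := by
  rw [isArtinianRing_iff_krullDimLE_zero, Ring.krullDimLE_zero_iff]
  intro p hp
  have hsurj : Function.Surjective (Ideal.Quotient.mk (M ^ n)) := Ideal.Quotient.mk_surjective
  have hprime : (p.comap (Ideal.Quotient.mk (M ^ n))).IsPrime := Ideal.comap_isPrime _ _
  have hle : M ^ n ≤ p.comap (Ideal.Quotient.mk (M ^ n)) := by
    intro x hx
    rw [Ideal.mem_comap]
    have : Ideal.Quotient.mk (M ^ n) x = 0 := Ideal.Quotient.eq_zero_iff_mem.mpr hx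
    rw [this]
    exact p.zero_mem
  have hle' : M ≤ p.comap (Ideal.Quotient.mk (M ^ n)) := Ideal.IsPrime.le_of_pow_le hle
  have heq : M = p.comap (Ideal.Quotient.mk (M ^ n)) := hM.eq_of_le hprime.ne_top hle'
  have hp' : p = M.map (Ideal.Quotient.mk (M ^ n)) := by
    have h1 := Ideal.map_comap_of_surjective (Ideal.Quotient.mk (M ^ n)) hsurj p
    rw [← heq] at h1
    exact h1.symm
  rcases Ideal.map_eq_top_or_isMaximal_of_surjective (Ideal.Quotient.mk (M ^ n)) hsurj hM with h | h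
  · exact absurd (hp'.trans h) hp.ne_top
  · rw [hp']; exact h

/-- In a noetherian ring, a nonempty set of ideals all containing a fixed power of a maximal
ideal has a minimal element. -/
theorem exists_minimal_of_maximal_pow_le {R : Type*} [CommRing R] [IsNoetherianRing R]
    (M : Ideal R) [hM : M.IsMaximal] (n : ℕ) (S : Set (Ideal R)) (hne : S.Nonempty)
    (hS : ∀ I ∈ S, M ^ n ≤ I) : ∃ I ∈ S, ∀ I' ∈ S, I' ≤ I → I' = I := by
  have : IsArtinianRing (R ⧸ M ^ n) := isArtinianRing_quot_maximal_pow M n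
  have hsurj : Function.Surjective (Ideal.Quotient.mk (M ^ n)) := Ideal.Quotient.mk_surjective
  have hwf : WellFounded ((· < ·) : Ideal (R ⧸ M ^ n) → Ideal (R ⧸ M ^ n) → Prop) :=
    (inferInstance : WellFoundedLT (Ideal (R ⧸ M ^ n))).wf
  obtain ⟨J, ⟨I, hI, rfl⟩, hmin⟩ :=
    hwf.has_min ((Ideal.map (Ideal.Quotient.mk (M ^ n))) '' S) (hne.image _)
  refine ⟨I, hI, fun I' hI' hle => ?_⟩
  have hcm : ∀ K ∈ S, (K.map (Ideal.Quotient.mk (M ^ n))).comap (Ideal.Quotient.mk (M ^ n)) = K := by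
    intro K hK
    rw [Ideal.comap_map_of_surjective _ hsurj, ← RingHom.ker_eq_comap_bot, Ideal.mk_ker]
    exact sup_eq_left.mpr (hS K hK)
  have h1 : I'.map (Ideal.Quotient.mk (M ^ n)) ≤ I.map (Ideal.Quotient.mk (M ^ n)) :=
    Ideal.map_mono hle
  have h2 : ¬ I'.map (Ideal.Quotient.mk (M ^ n)) < I.map (Ideal.Quotient.mk (M ^ n)) :=
    hmin _ ⟨I', hI', rfl⟩
  have h3 : I'.map (Ideal.Quotient.mk (M ^ n)) = I.map (Ideal.Quotient.mk (M ^ n)) := by
    rcases h1.lt_or_eq with h | h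
    · exact absurd h h2
    · exact h
  rw [← hcm I' hI', ← hcm I hI, h3]


variable {𝒪 : Type} [CommRing 𝒪] [IsDomain 𝒪] [IsDiscreteValuationRing 𝒪]
  {X : Type} {c : X → 𝒪} {P : PointPred 𝒪 X}

omit [IsDomain 𝒪] [IsDiscreteValuationRing 𝒪] in
/-- If the tautological images of a finite set `F` of coordinates generate the quotient
`MvPolynomial X 𝒪 ⧸ 𝔞`, every polynomial is congruent modulo `𝔞` to a polynomial in the
variables of `F`. -/
theorem exists_rename_sub_mem (F : Finset X) (𝔞 : Ideal (MvPolynomial X 𝒪))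
    (hgen : Algebra.adjoin 𝒪 ((taut 𝔞) '' (F : Set X)) = ⊤) (x : MvPolynomial X 𝒪) :
    ∃ y : MvPolynomial F 𝒪,
      x - MvPolynomial.rename (Subtype.val : F → X) y ∈ 𝔞 := by
  classical
  set g : MvPolynomial F 𝒪 →ₐ[𝒪] MvPolynomial X 𝒪 ⧸ 𝔞 :=
    MvPolynomial.aeval (fun f : F => taut 𝔞 f.1) with hg
  have hcomp : ∀ y, g y = Ideal.Quotient.mk 𝔞 (MvPolynomial.rename (Subtype.val : F → X) y) := by
    intro y
    have : g = (Ideal.Quotient.mkₐ 𝒪 𝔞).comp (MvPolynomial.rename (Subtype.val : F → X)) := by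
      apply MvPolynomial.algHom_ext
      intro f
      simp [hg, taut]
    rw [this]
    rfl
  have hsub : (taut 𝔞) '' (F : Set X) ⊆ (g.range : Set (MvPolynomial X 𝒪 ⧸ 𝔞)) := by
    rintro _ ⟨f, hf, rfl⟩
    exact ⟨MvPolynomial.X ⟨f, hf⟩, by simp [hg]⟩
  have htop : g.range = ⊤ := by
    apply top_le_iff.mp
    rw [← hgen]
    exact Algebra.adjoin_le hsub
  have hmem : Ideal.Quotient.mk 𝔞 x ∈ g.range := by rw [htop]; trivial
  obtain ⟨y, hy⟩ := hmem
  refine ⟨y, ?_⟩
  rw [← Ideal.Quotient.eq_zero_iff_mem, map_sub, sub_eq_zero, ← hcomp y]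
  exact hy.symm

/-- The base ideal is maximal. -/
theorem baseIdeal_isMaximal (c : X → 𝒪) : (baseIdeal c).IsMaximal := by
  unfold baseIdeal
  apply RingHom.ker_isMaximal_of_surjective
  intro k
  obtain ⟨r, rfl⟩ := IsLocalRing.residue_surjective k
  exact ⟨MvPolynomial.C r, by simp⟩

/-- The restriction of the base ideal to the polynomial ring in a subset of the variables is
maximal. -/
theorem comap_rename_baseIdeal_isMaximal (c : X → 𝒪) (F : Finset X) :
    ((baseIdeal c).comap (MvPolynomial.rename (Subtype.val : F → X) :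
      MvPolynomial F 𝒪 →ₐ[𝒪] MvPolynomial X 𝒪)).IsMaximal := by
  have h : (baseIdeal c).comap (MvPolynomial.rename (Subtype.val : F → X) :
      MvPolynomial F 𝒪 →ₐ[𝒪] MvPolynomial X 𝒪) =
      RingHom.ker (((MvPolynomial.aeval (fun f => algebraMap 𝒪 (ResidueField 𝒪) (c f)) :
        MvPolynomial X 𝒪 →ₐ[𝒪] ResidueField 𝒪).comp
          (MvPolynomial.rename (Subtype.val : F → X) :
            MvPolynomial F 𝒪 →ₐ[𝒪] MvPolynomial X 𝒪)) :
        MvPolynomial F 𝒪 →ₐ[𝒪] ResidueField 𝒪) := by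
    ext y
    simp only [baseIdeal, Ideal.mem_comap, RingHom.mem_ker, AlgHom.comp_apply]
  rw [h]
  apply RingHom.ker_isMaximal_of_surjective
  intro k
  obtain ⟨r, rfl⟩ := IsLocalRing.residue_surjective k
  exact ⟨MvPolynomial.C r, by simp⟩

/-- **H78-ART-3**, with the closure facts as hypotheses: the tower of least admissible ideals
exists. -/
theorem nonempty_tower_of
    (h_inf : ∀ a b : Ideal (MvPolynomial X 𝒪), Admissible P a → Admissible P b →
      Admissible P (a ⊓ b))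
    (h_base : Admissible P (baseIdeal c))
    (h_gen : ∃ F : Finset X, ∀ a : Ideal (MvPolynomial X 𝒪), Admissible P a →
      Algebra.adjoin 𝒪 ((taut a) '' (F : Set X)) = ⊤) :
    Nonempty (Tower c P) := by
  classical
  obtain ⟨F, hF⟩ := h_gen
  set θ : MvPolynomial F 𝒪 →ₐ[𝒪] MvPolynomial X 𝒪 :=
    MvPolynomial.rename (Subtype.val : F → X) with hθ
  set M : Ideal (MvPolynomial F 𝒪) := (baseIdeal c).comap θ with hMdef
  have hM : M.IsMaximal := comap_rename_baseIdeal_isMaximal c F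
  have key : ∀ n : ℕ, ∃ a : Ideal (MvPolynomial X 𝒪), Admissible P a ∧
      baseIdeal c ^ (n + 1) ≤ a ∧
      ∀ b, Admissible P b → baseIdeal c ^ (n + 1) ≤ b → a ≤ b := by
    intro n
    set S : Set (Ideal (MvPolynomial F 𝒪)) :=
      {I | ∃ a, Admissible P a ∧ baseIdeal c ^ (n + 1) ≤ a ∧ I = a.comap θ} with hS
    have hne : S.Nonempty :=
      ⟨(baseIdeal c).comap θ, baseIdeal c, h_base, Ideal.pow_le_self (Nat.succ_ne_zero n), rfl⟩
    have hle : ∀ I ∈ S, M ^ (n + 1) ≤ I := by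
      rintro I ⟨a, -, ha, rfl⟩
      exact (Ideal.le_comap_pow _ _).trans (Ideal.comap_mono ha)
    obtain ⟨I, ⟨a0, ha0, hpow0, rfl⟩, hmin⟩ :=
      exists_minimal_of_maximal_pow_le M (n + 1) S hne hle
    refine ⟨a0, ha0, hpow0, fun b hb hpowb x hx => ?_⟩
    have hab : Admissible P (a0 ⊓ b) := h_inf a0 b ha0 hb
    have hpowab : baseIdeal c ^ (n + 1) ≤ a0 ⊓ b := le_inf hpow0 hpowb
    have heq : (a0 ⊓ b).comap θ = a0.comap θ :=
      hmin _ ⟨a0 ⊓ b, hab, hpowab, rfl⟩ (Ideal.comap_mono inf_le_left)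
    obtain ⟨y, hy⟩ := exists_rename_sub_mem F (a0 ⊓ b) (hF _ hab) x
    have hy0 : θ y ∈ a0 := by
      have h1 : x - θ y ∈ a0 := hy.1
      have h2 : θ y = x - (x - θ y) := by ring
      rw [h2]
      exact a0.sub_mem hx h1
    have hyb : θ y ∈ b := by
      have h1 : y ∈ a0.comap θ := hy0
      rw [← heq] at h1
      exact h1.2
    have h3 : x = (x - θ y) + θ y := by ring
    rw [h3]
    exact b.add_mem hy.2 hyb
  choose a ha1 ha2 ha3 using key
  exact ⟨⟨a, ha1, ha2, ha3, F, fun n => hF _ (ha1 n)⟩⟩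

end Fermat.Agent.H34
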