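import Fermat.Agent.H34.Tower
import Fermat.Agent.H34.FinsetGen
import Fermat.Agent.H12.Art1

/-!
# H78-ART-3 (P-DEFRING / S53), exact statement: the tower of least admissible ideals exists
-/

set_option autoImplicit false

noncomputable section

namespace Fermat.Agent.H34

open IsLocalRing Fermat.Agent.H78

/-- **H78-ART-3**, exact statement. -/
theorem nonempty_tower {O : Type} [CommRing O] [IsDomain O] [IsDiscreteValuationRing O]
    [IsAdicComplete (maximalIdeal O) O] [Finite (ResidueField O)] {X : Type} {c : X → O}
    {P : PointPred O X} (hP : IsProRepresentablePred O c P) : Nonempty (Tower c P) :=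
  nonempty_tower_of (fun _ _ ha hb => Fermat.Agent.H12.admissible_inf hP ha hb)
    (Fermat.Agent.H12.admissible_baseIdeal hP) (exists_finset_gen hP)

end Fermat.Agent.H34
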